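import Fermat.Agent.FunField.LocalCount

/-!
Divisors of functions on a function field of one variable over an algebraically closed field:
finite support and degree zero.
-/

set_option autoImplicit false

noncomputable section

namespace Fermat.Agent.FunField

open AlgebraicCurve IsDedekindDomain IntermediateField WithZero Module

variable {K F : Type*} [Field K] [Field F] [Algebra K F]

theorem mem_range_of_isAlgebraic [IsAlgClosed K] {f : F} (hf : IsAlgebraic K f) :
    ∃ a : K, algebraMap K F a = f := by
  have h1 : IsIntegral K f := hf.isIntegral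
  have h2 := IsAlgClosed.degree_eq_one_of_irreducible K (minpoly.irreducible h1)
  exact minpoly.mem_range_of_degree_eq_one K f h2

theorem transcendental_of_ord_ne_zero [IsAlgClosed K] (v : Place K F) {f : F} (hf : v.ord f ≠ 0) :
    Transcendental K f := by
  intro halg
  obtain ⟨a, rfl⟩ := mem_range_of_isAlgebraic halg
  exact hf (ord_algebraMap v a)

/-- If `F/K(x)` is finite and `y` is transcendental then `F/K(y)` is finite. -/
theorem finiteDimensional_adjoin {x y : F} (hx : Transcendental K x) (hy : Transcendental K y)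
    [FiniteDimensional K⟮x⟯ F] : FiniteDimensional K⟮y⟯ F := by
  have halg : IsAlgebraic K⟮y⟯ x :=
    isAlgebraic_adjoin_iff.mpr (.adjoin_singleton hx hy
      (isAlgebraic_adjoin_iff.mp (Algebra.IsAlgebraic.isAlgebraic y)))
  let Fyx := IntermediateField.restrictScalars K K⟮y⟯⟮x⟯
  let Fxy := IntermediateField.restrictScalars K K⟮x⟯⟮y⟯
  letI : Algebra K⟮y⟯ Fyx := K⟮y⟯⟮x⟯.algebra
  letI : Module K⟮y⟯ Fyx := Algebra.toModule
  letI : SMul K⟮y⟯ Fyx := Algebra.toSMul
  letI : Algebra K⟮x⟯ Fxy := K⟮x⟯⟮y⟯.algebra
  letI : Module K⟮x⟯ Fxy := Algebra.toModule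
  letI : SMul K⟮x⟯ Fxy := Algebra.toSMul
  have : FiniteDimensional K⟮y⟯ Fyx :=
    adjoin.finiteDimensional (isAlgebraic_iff_isIntegral.mp halg)
  have : FiniteDimensional Fyx F := by
    unfold Fyx
    rw [adjoin_simple_comm]
    have : IsScalarTower K⟮x⟯ Fxy F := isScalarTower_mid' K⟮x⟯⟮y⟯
    exact .right K⟮x⟯ Fxy F
  have : IsScalarTower K⟮y⟯ Fyx F := isScalarTower_mid' K⟮y⟯⟮x⟯
  exact .trans K⟮y⟯ Fyx F

theorem adjoin_inv_eq (f : F) : K⟮f⁻¹⟯ = K⟮f⟯ := by
  apply le_antisymm
  · rw [adjoin_simple_le_iff]
    exact inv_mem (mem_adjoin_simple_self K f)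
  · rw [adjoin_simple_le_iff]
    have := inv_mem (mem_adjoin_simple_self K f⁻¹)
    rwa [inv_inv] at this

variable [IsAlgClosed K] [CharZero K]

/-- Over an algebraically closed field of characteristic zero, a function field of one variable
has principal divisors (finite support, degree zero) and all places have degree one. -/
theorem exists_divisor_of_adjoin {x : F} (hx : Transcendental K x) [FiniteDimensional K⟮x⟯ F]
    {f : F} (hf : f ≠ 0) :
    ∃ D : Divisor K F, (∀ v, D v = v.ord f) ∧ D.sum (fun _ n => n) = 0 := by
  classical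
  by_cases halg : IsAlgebraic K f
  · obtain ⟨a, rfl⟩ := mem_range_of_isAlgebraic halg
    exact ⟨0, fun v => by simp [ord_algebraMap], by simp⟩
  · have hft : Transcendental K f := halg
    have hft' : Transcendental K f⁻¹ := by
      intro h
      apply hft
      simpa using h.inv
    have := finiteDimensional_adjoin hx hft
    have := finiteDimensional_adjoin hx hft'
    obtain ⟨s, hs, hsum, -⟩ := exists_finset_sum_ord_eq_finrank (K := K) (F := F) hft
    obtain ⟨s', hs', hsum', -⟩ := exists_finset_sum_ord_eq_finrank (K := K) (F := F) hft'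
    rw [adjoin_inv_eq] at hsum'
    have hfin : ∀ v : Place K F, v.ord f ≠ 0 → v ∈ s ∪ s' := by
      intro v hv
      rw [Finset.mem_union, hs, hs', v.ord_inv]
      omega
    let D : Divisor K F := Finsupp.onFinset (s ∪ s') (fun v => v.ord f) (fun v hv => hfin v hv)
    refine ⟨D, fun v => rfl, ?_⟩
    rw [Finsupp.onFinset_sum _ (by intro; rfl)]
    have hdisj : Disjoint s s' := by
      rw [Finset.disjoint_left]
      intro v hv hv'
      rw [hs] at hv
      rw [hs', v.ord_inv] at hv'
      omega
    rw [Finset.sum_union hdisj, hsum, ← hsum', ← Finset.sum_add_distrib]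
    refine Finset.sum_eq_zero fun v _ => ?_
    rw [v.ord_inv]
    ring

/-- Every element of the valuation ring of a place is a constant up to the maximal ideal. -/
theorem exists_residue_eq {x : F} (hx : Transcendental K x) [FiniteDimensional K⟮x⟯ F]
    (v : Place K F) {f : F} (hf : f ∈ v.toValuationSubring) :
    ∃ a : K, v.adicValuation (f - algebraMap K F a) < 1 := by
  obtain ⟨π, hπ⟩ := IsDiscreteValuationRing.exists_irreducible v.toValuationSubring
  have hord : v.ord (π : F) = 1 := v.ord_coe_irreducible hπ
  have ht : Transcendental K (π : F) := transcendental_of_ord_ne_zero v (by rw [hord]; decide)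
  have := finiteDimensional_adjoin hx ht
  obtain ⟨s, hs, -, hres⟩ := exists_finset_sum_ord_eq_finrank (K := K) (F := F) ht
  exact hres v ((hs v).2 (by rw [hord]; decide)) f hf

theorem finite_residueField {x : F} (hx : Transcendental K x) [FiniteDimensional K⟮x⟯ F]
    (v : Place K F) : Module.Finite K v.ResidueField := by
  have hsurj : Function.Surjective (algebraMap K v.ResidueField) := by
    intro y
    obtain ⟨⟨f, hf⟩, rfl⟩ := IsLocalRing.residue_surjective y
    obtain ⟨a, ha⟩ := exists_residue_eq hx v hf
    refine ⟨a, ?_⟩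
    change IsLocalRing.residue _ (algebraMap K v.toValuationSubring a) = _
    rw [← sub_eq_zero, ← map_sub, IsLocalRing.residue_eq_zero_iff, IsLocalRing.mem_maximalIdeal,
      mem_nonunits_iff, ← v.adicValuation_coe_eq_one_iff]
    have h1 : ((algebraMap K v.toValuationSubring a - ⟨f, hf⟩ : v.toValuationSubring) : F) =
        -(f - algebraMap K F a) := by
      change algebraMap K F a - f = _
      ring
    rw [h1, Valuation.map_neg]
    exact ha.ne
  exact Module.Finite.of_surjective (Algebra.linearMap K v.ResidueField) hsurj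

theorem deg_eq_one {x : F} (hx : Transcendental K x) [FiniteDimensional K⟮x⟯ F]
    (v : Place K F) : v.deg = 1 := by
  have := finite_residueField hx v
  exact v.deg_eq_one_of_isAlgClosed_of_finite

theorem degree_eq_sum {x : F} (hx : Transcendental K x) [FiniteDimensional K⟮x⟯ F]
    (D : Divisor K F) : Divisor.degree D = D.sum (fun _ n => n) := by
  rw [Divisor.degree, Finsupp.liftAddHom_apply]
  refine Finsupp.sum_congr fun v _ => ?_
  simp [deg_eq_one hx v]

theorem hasPrincipalDivisors {x : F} (hx : Transcendental K x) [FiniteDimensional K⟮x⟯ F] :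
    HasPrincipalDivisors K F where
  exists_divisor f hf := by
    obtain ⟨D, hD, hD'⟩ := exists_divisor_of_adjoin hx hf
    exact ⟨D, hD, by rw [degree_eq_sum hx, hD']⟩

end Fermat.Agent.FunField
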