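import Fermat.Agent.FunField.Divisors
import Fermat.Prelude.Def_AlgebraicCurve_CanonicalDivisor

/-!
Differentials of a function field of one variable: `Ω` is free on `dπ`, and
`ord_v (df) = ord_v f - 1` whenever `ord_v f ≠ 0` in `K`.
-/

set_option autoImplicit false

noncomputable section

namespace Fermat.Agent.FunField

open AlgebraicCurve IsDedekindDomain IntermediateField WithZero Module KaehlerDifferential
open scoped IntermediateField.algebraAdjoinAdjoin TensorProduct

variable {K F : Type*} [Field K] [Field F] [Algebra K F]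

/-- `Ω[F⁄K]` is free of rank one on `dπ` when `F/K(π)` is algebraic separable. -/
theorem exists_kaehler_equiv {π : F} (hπ : Transcendental K π)
    [Algebra.IsSeparable K⟮π⟯ F] :
    ∃ e : Ω[F⁄K] ≃ₗ[F] F, e (D K F π) = 1 := by
  letI algP : Algebra (Polynomial K) F := (Polynomial.aeval π).toRingHom.toAlgebra
  letI algPA : Algebra (Polynomial K) (Algebra.adjoin K {π}) :=
    (polyEquivAdjoin hπ : Polynomial K →+* Algebra.adjoin K {π}).toAlgebra
  have : IsScalarTower (Polynomial K) (Algebra.adjoin K {π}) F :=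
    IsScalarTower.of_algebraMap_eq fun p => rfl
  have : IsScalarTower K (Polynomial K) F :=
    IsScalarTower.of_algebraMap_eq fun a => by
      change algebraMap K F a = Polynomial.aeval π (Polynomial.C a)
      rw [Polynomial.aeval_C]
  have h1 : Algebra.FormallyEtale (Polynomial K) (Algebra.adjoin K {π}) := by
    let e : Polynomial K ≃ₐ[Polynomial K] Algebra.adjoin K {π} :=
      AlgEquiv.ofRingEquiv (f := (polyEquivAdjoin hπ).toRingEquiv) (fun p => rfl)
    exact Algebra.FormallyEtale.of_equiv e
  have h2 : Algebra.FormallyEtale (Algebra.adjoin K {π}) K⟮π⟯ :=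
    Algebra.FormallyEtale.of_isLocalization (nonZeroDivisors (Algebra.adjoin K {π}))
  have h3 : Algebra.FormallyEtale K⟮π⟯ F := Algebra.FormallyEtale.of_isSeparable _ _
  have h4 : Algebra.FormallyEtale (Algebra.adjoin K {π}) F :=
    Algebra.FormallyEtale.comp _ K⟮π⟯ F
  have h5 : Algebra.FormallyEtale (Polynomial K) F :=
    Algebra.FormallyEtale.comp _ (Algebra.adjoin K {π}) F
  let e1 := (tensorKaehlerEquivOfFormallyEtale K (Polynomial K) F).symm
  let e2 : F ⊗[Polynomial K] Ω[Polynomial K⁄K] ≃ₗ[F] F ⊗[Polynomial K] Polynomial K :=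
    TensorProduct.AlgebraTensorModule.congr (LinearEquiv.refl F F) (polynomialEquiv K)
  let e3 : F ⊗[Polynomial K] Polynomial K ≃ₗ[F] F := TensorProduct.AlgebraTensorModule.rid _ _ _
  refine ⟨(e1.trans e2).trans e3, ?_⟩
  have h6 : π = algebraMap (Polynomial K) F Polynomial.X := by
    change π = Polynomial.aeval π Polynomial.X
    rw [Polynomial.aeval_X]
  conv_lhs => rw [h6]
  rw [LinearEquiv.trans_apply, LinearEquiv.trans_apply,
    tensorKaehlerEquivOfFormallyEtale_symm_D_algebraMap]
  simp [e2, e3]

theorem exists_derivation {π : F} (hπ : Transcendental K π) [Algebra.IsSeparable K⟮π⟯ F] :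
    ∃ δ : Derivation K F F, δ π = 1 ∧ ∀ f, D K F f = δ f • D K F π := by
  obtain ⟨e, he⟩ := exists_kaehler_equiv hπ
  refine ⟨e.toLinearMap.compDer (D K F), he, fun f => ?_⟩
  apply e.injective
  rw [map_smul, he]
  simp

section Integrality

variable [IsAlgClosed K] [CharZero K]

/-- Derivations with `δπ = 1` have bounded poles on the valuation ring. -/
theorem exists_bound_derivation {x : F} (hx : Transcendental K x) [FiniteDimensional K⟮x⟯ F]
    (v : Place K F) {π : v.toValuationSubring} (hπ : Irreducible π) (δ : Derivation K F F)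
    (hδ : δ (π : F) = 1) :
    ∃ N : ℕ, ∀ f ∈ v.toValuationSubring, (π : F) ^ N * δ f ∈ v.toValuationSubring := by
  have hord : v.ord (π : F) = 1 := v.ord_coe_irreducible hπ
  have hπ0 : (π : F) ≠ 0 := by
    intro h
    rw [h] at hord
    simp at hord
  have ht : Transcendental K (π : F) := transcendental_of_ord_ne_zero v (by rw [hord]; decide)
  have := finiteDimensional_adjoin hx ht
  have := isDedekindDomain_adjoin ht
  have := isFractionRing_intClosure (K := K) (π : F)
  have := isDedekindDomain_intClosure ht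
  have hfin := finite_intClosure ht
  set A := Algebra.adjoin K {(π : F)} with hA
  set B := intClosure K (π : F) with hB
  have hAv : ∀ a : A, (a : F) ∈ v.toValuationSubring := by
    intro a
    have h1 : A ≤ ({ v.toValuationSubring.toSubring with
        algebraMap_mem' := v.algebraMap_mem' } : Subalgebra K F) := by
      rw [hA, Algebra.adjoin_le_iff, Set.singleton_subset_iff]
      exact π.2
    exact h1 a.2
  have hδA : ∀ a : A, δ (a : F) ∈ v.toValuationSubring := by
    intro a
    obtain ⟨p, rfl⟩ := (polyEquivAdjoin ht).surjective a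
    rw [coe_polyEquivAdjoin, Derivation.map_aeval, hδ, smul_eq_mul, mul_one]
    have := hAv (polyEquivAdjoin ht (Polynomial.derivative p))
    rwa [coe_polyEquivAdjoin] at this
  have hBv : ∀ b : B, (b : F) ∈ v.toValuationSubring := fun b =>
    mem_place_of_isIntegral v hAv b.2
  obtain ⟨S, hS⟩ := hfin.fg_top
  -- bound on generators
  obtain ⟨N, hN⟩ : ∃ N : ℕ, ∀ b ∈ S, (π : F) ^ N * δ (b : F) ∈ v.toValuationSubring := by
    refine ⟨∑ b ∈ S, (v.ord (δ (b : F))).natAbs, fun b hb => ?_⟩
    rcases eq_or_ne (δ (b : F)) 0 with h0 | h0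
    · rw [h0, mul_zero]
      exact zero_mem _
    rw [mem_iff_ord_nonneg, v.ord_mul (pow_ne_zero _ hπ0) h0, ← zpow_natCast, v.ord_zpow, hord]
    have h1 : (v.ord (δ (b : F))).natAbs ≤ ∑ b ∈ S, (v.ord (δ (b : F))).natAbs :=
      Finset.single_le_sum (f := fun b : B => (v.ord (δ (b : F))).natAbs)
        (fun _ _ => Nat.zero_le _) hb
    omega
  refine ⟨N, ?_⟩
  have hBN : ∀ b : B, (π : F) ^ N * δ (b : F) ∈ v.toValuationSubring := by
    intro b
    have hb : b ∈ Submodule.span A (S : Set B) := by rw [hS]; trivial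
    induction hb using Submodule.span_induction with
    | mem y hy => exact hN y hy
    | zero => simp
    | add y z _ _ hy hz =>
      have : (π : F) ^ N * δ ((y + z : B) : F) =
          (π : F) ^ N * δ (y : F) + (π : F) ^ N * δ (z : F) := by
        rw [← mul_add, ← map_add]
        rfl
      rw [this]
      exact add_mem hy hz
    | smul a y _ hy =>
      have h1 : ((a • y : B) : F) = (a : F) * (y : F) := rfl
      rw [h1, Derivation.leibniz, smul_eq_mul, smul_eq_mul]
      have h2 : (π : F) ^ N * ((a : F) * δ (y : F) + (y : F) * δ (a : F)) =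
          (a : F) * ((π : F) ^ N * δ (y : F)) + (π : F) ^ N * ((y : F) * δ (a : F)) := by ring
      rw [h2]
      exact add_mem (mul_mem (hAv a) hy)
        (mul_mem (pow_mem π.2 N) (mul_mem (hBv y) (hδA a)))
  intro f hf
  obtain ⟨w, hw, -⟩ := exists_heightOneSpectrum (R := B) v hBv
  have hmem : ∀ y : F, y ∈ v.toValuationSubring ↔ w.valuation F y ≤ 1 := fun y =>
    (Iff.of_eq (congrArg (fun v' : Place K F => y ∈ v'.toValuationSubring) hw)).trans
      mem_place_ofHeightOne
  have hf' : w.valuation F f ≤ 1 := (hmem f).1 hf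
  obtain ⟨n, d, hnd⟩ := w.exists_primeCompl_mul_eq_of_integer f hf'
  change f * (d : B).1 = n.1 at hnd
  have hd0 : (d : B).1 ≠ 0 := by
    intro h0
    apply d.2
    have : (d : B) = 0 := Subtype.ext h0
    rw [this]
    exact w.asIdeal.zero_mem
  have hdinv : ((d : B).1)⁻¹ ∈ v.toValuationSubring := by
    have h1 : w.valuation F (algebraMap B F d) = 1 := w.valuation_eq_one_iff_notMem.2 d.2
    rw [hmem, map_inv₀]
    change (w.valuation F (algebraMap B F d))⁻¹ ≤ 1
    rw [h1, inv_one]
  have h3 : δ f = ((d : B).1)⁻¹ * (δ n.1 - f * δ (d : B).1) := by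
    rw [← hnd, Derivation.leibniz, smul_eq_mul, smul_eq_mul]
    field_simp
    ring
  rw [h3]
  have h4 : (π : F) ^ N * (((d : B).1)⁻¹ * (δ n.1 - f * δ (d : B).1)) =
      ((d : B).1)⁻¹ * ((π : F) ^ N * δ n.1 - f * ((π : F) ^ N * δ (d : B).1)) := by ring
  rw [h4]
  exact mul_mem hdinv (sub_mem (hBN n) (mul_mem hf (hBN d)))

/-- Derivations with `δπ = 1` preserve the valuation ring. -/
theorem derivation_mem {x : F} (hx : Transcendental K x) [FiniteDimensional K⟮x⟯ F]
    (v : Place K F) {π : v.toValuationSubring} (hπ : Irreducible π) (δ : Derivation K F F)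
    (hδ : δ (π : F) = 1) {f : F} (hf : f ∈ v.toValuationSubring) :
    δ f ∈ v.toValuationSubring := by
  obtain ⟨N, hN⟩ := exists_bound_derivation hx v hπ δ hδ
  obtain ⟨a, g, hg, hfg⟩ := exists_expansion v (fun y hy => exists_residue_eq hx v hy) hπ (N + 1) f hf
  rw [hfg, map_add, map_sum]
  refine add_mem (sum_mem fun i _ => ?_) ?_
  · rw [Derivation.leibniz, Derivation.map_algebraMap, smul_zero, add_zero, smul_eq_mul,
      Derivation.leibniz_pow, hδ, smul_eq_mul, mul_one]
    exact mul_mem (v.algebraMap_mem' _) (nsmul_mem (pow_mem π.2 _) _)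
  · rw [Derivation.leibniz, Derivation.leibniz_pow, hδ, smul_eq_mul, smul_eq_mul, smul_eq_mul,
      mul_one, pow_succ']
    refine add_mem ?_ ?_
    · rw [mul_assoc]
      exact mul_mem π.2 (hN g hg)
    · exact mul_mem hg (nsmul_mem (pow_mem π.2 _) _)

/-- `ord_v (δ f) = ord_v f - 1` if `ord_v f ≠ 0` (characteristic zero). -/
theorem ord_derivation {x : F} (hx : Transcendental K x) [FiniteDimensional K⟮x⟯ F]
    (v : Place K F) {π : v.toValuationSubring} (hπ : Irreducible π) (δ : Derivation K F F)
    (hδ : δ (π : F) = 1) {f : F} (hf : v.ord f ≠ 0) :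
    δ f ≠ 0 ∧ v.ord (δ f) = v.ord f - 1 := by
  have hf0 : f ≠ 0 := by
    rintro rfl
    simp at hf
  have hord : v.ord (π : F) = 1 := v.ord_coe_irreducible hπ
  have hπ0 : (π : F) ≠ 0 := by
    intro h
    rw [h] at hord
    simp at hord
  obtain ⟨u, hu⟩ := v.exists_unit_mul_zpow hf0 hπ
  set n := v.ord f with hn
  set u' : F := ((u : v.toValuationSubring) : F) with hu'
  have hu0 : u' ≠ 0 := by
    intro h
    exact u.ne_zero (Subtype.ext h)
  have h1 : δ f = (n : F) * u' * (π : F) ^ (n - 1) + (π : F) ^ n * δ u' := by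
    rw [hu, Derivation.leibniz, Derivation.leibniz_zpow, hδ]
    simp only [smul_eq_mul, mul_one, zsmul_eq_mul]
    ring
  have h2 : δ u' ∈ v.toValuationSubring := derivation_mem hx v hπ δ hδ (Subtype.property _)
  have h3 : δ f = (π : F) ^ (n - 1) * ((n : F) * u' + (π : F) * δ u') := by
    rw [h1]
    have : (π : F) ^ n = (π : F) ^ (n - 1) * π := by
      rw [← zpow_add_one₀ hπ0]
      congr 1
      ring
    rw [this]
    ring
  have hn0 : (n : F) ≠ 0 := by
    have : CharZero F := charZero_of_injective_algebraMap (algebraMap K F).injective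
    exact_mod_cast hf
  have hnord : v.ord ((n : F)) = 0 := by
    have : (n : F) = algebraMap K F (n : K) := by simp
    rw [this, ord_algebraMap]
  have hval : v.adicValuation ((n : F) * u') = 1 := by
    rw [v.adicValuation_eq_exp_neg_ord (mul_ne_zero hn0 hu0), v.ord_mul hn0 hu0, hnord,
      v.ord_coe_unit]
    simp
  have hval2 : v.adicValuation ((π : F) * δ u') < 1 := by
    rw [adicValuation_lt_one_iff]
    rcases eq_or_ne (δ u') 0 with h0 | h0
    · left
      rw [h0, mul_zero]
    · right
      rw [v.ord_mul hπ0 h0, hord]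
      have := ord_nonneg_of_mem v h2
      omega
  have hval3 : v.adicValuation ((n : F) * u' + (π : F) * δ u') = 1 := by
    rw [Valuation.map_add_eq_of_lt_left _ (by rwa [hval]), hval]
  have hne : (n : F) * u' + (π : F) * δ u' ≠ 0 := by
    intro h
    rw [h, map_zero] at hval3
    exact zero_ne_one hval3
  have hord3 : v.ord ((n : F) * u' + (π : F) * δ u') = 0 := by
    rw [Place.ord, hval3]
    simp
  refine ⟨?_, ?_⟩
  · rw [h3]
    exact mul_ne_zero (zpow_ne_zero _ hπ0) hne
  · rw [h3, v.ord_mul (zpow_ne_zero _ hπ0) hne, v.ord_zpow, hord, hord3]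
    ring

theorem exists_dCoord_eq (v : Place K F) :
    ∃ π : v.toValuationSubring, Irreducible π ∧ v.dCoord = D K F (π : F) :=
  ⟨(IsDiscreteValuationRing.exists_irreducible v.toValuationSubring).choose,
    (IsDiscreteValuationRing.exists_irreducible v.toValuationSubring).choose_spec, rfl⟩

theorem dCoordGenerates {x : F} (hx : Transcendental K x) [FiniteDimensional K⟮x⟯ F]
    (v : Place K F) : v.DCoordGenerates := by
  obtain ⟨π, hπ, hπ'⟩ := exists_dCoord_eq v
  have hord : v.ord (π : F) = 1 := v.ord_coe_irreducible hπ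
  have ht : Transcendental K (π : F) := transcendental_of_ord_ne_zero v (by rw [hord]; decide)
  have := finiteDimensional_adjoin hx ht
  obtain ⟨e, he⟩ := exists_kaehler_equiv ht
  constructor
  rw [eq_top_iff]
  intro ω _
  rw [Submodule.mem_span_singleton]
  refine ⟨e ω, ?_⟩
  apply e.injective
  rw [hπ', map_smul, he, smul_eq_mul, mul_one]

theorem nontrivial_kaehler {x : F} (hx : Transcendental K x) [FiniteDimensional K⟮x⟯ F] :
    Nontrivial Ω[F⁄K] := by
  obtain ⟨e, he⟩ := exists_kaehler_equiv hx
  exact ⟨D K F x, 0, fun h => by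
    rw [h, map_zero] at he
    exact zero_ne_one he⟩

theorem exists_eq_smul {x : F} (hx : Transcendental K x) [FiniteDimensional K⟮x⟯ F]
    {y : F} (hy : Transcendental K y) {ω : Ω[F⁄K]} (hω : ω ≠ 0) :
    ∃ f : F, f ≠ 0 ∧ ω = f • D K F y := by
  have := finiteDimensional_adjoin hx hy
  obtain ⟨e, he⟩ := exists_kaehler_equiv hy
  refine ⟨e ω, by simpa using hω, ?_⟩
  apply e.injective
  rw [map_smul, he, smul_eq_mul, mul_one]

theorem ordDifferential_D {x : F} (hx : Transcendental K x) [FiniteDimensional K⟮x⟯ F]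
    (v : Place K F) {f : F} (hf : v.ord f ≠ 0) :
    v.differentialCoeff (D K F f) ≠ 0 ∧ v.ordDifferential (D K F f) = v.ord f - 1 := by
  have := dCoordGenerates hx v
  have := nontrivial_kaehler hx
  obtain ⟨π, hπ, hπ'⟩ := exists_dCoord_eq v
  have hord : v.ord (π : F) = 1 := v.ord_coe_irreducible hπ
  have ht : Transcendental K (π : F) := transcendental_of_ord_ne_zero v (by rw [hord]; decide)
  have := finiteDimensional_adjoin hx ht
  obtain ⟨δ, hδ, hδ'⟩ := exists_derivation ht
  have h1 : v.differentialCoeff (D K F f) = δ f := by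
    apply v.differentialCoeff_unique
    rw [hπ', hδ' f]
  have h2 := ord_derivation hx v hπ δ hδ hf
  rw [Place.ordDifferential, h1]
  exact h2

end Integrality

end Fermat.Agent.FunField
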