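import Fermat.Agent.FunField.Differentials

/-!
The degree of the canonical divisor of a function field of one variable in terms of the
ramification over a rational subfield `K(j)` (Riemann-Hurwitz in characteristic zero).
-/

set_option autoImplicit false

noncomputable section

namespace Fermat.Agent.FunField

open AlgebraicCurve IsDedekindDomain IntermediateField WithZero Module KaehlerDifferential

variable {K F : Type*} [Field K] [Field F] [Algebra K F] [IsAlgClosed K] [CharZero K]

theorem transcendental_sub {x : F} (hx : Transcendental K x) (c : K) :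
    Transcendental K (x - algebraMap K F c) := by
  intro h
  apply hx
  have := h.add (isAlgebraic_algebraMap (R := K) (A := F) c)
  simpa using this

theorem adjoin_sub_eq (x : F) (c : K) : K⟮x - algebraMap K F c⟯ = K⟮x⟯ := by
  apply le_antisymm
  · rw [adjoin_simple_le_iff]
    exact sub_mem (mem_adjoin_simple_self K x) (IntermediateField.algebraMap_mem _ c)
  · rw [adjoin_simple_le_iff]
    have := add_mem (mem_adjoin_simple_self K (x - algebraMap K F c)) (IntermediateField.algebraMap_mem K⟮x - algebraMap K F c⟯ c)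
    rwa [sub_add_cancel] at this

/-- The finite set of places above `j = c`, with its fundamental identity. -/
theorem exists_finset_above {j : F} (hj : Transcendental K j) [FiniteDimensional K⟮j⟯ F] (c : K) :
    ∃ s : Finset (Place K F), (∀ v, v ∈ s ↔ 0 < v.ord (j - algebraMap K F c)) ∧
      (∑ v ∈ s, v.ord (j - algebraMap K F c) = finrank K⟮j⟯ F) := by
  have hc := transcendental_sub hj c
  have := finiteDimensional_adjoin hj hc
  obtain ⟨s, hs, hsum, -⟩ := exists_finset_sum_ord_eq_finrank (K := K) (F := F) hc
  refine ⟨s, hs, ?_⟩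
  rw [hsum, adjoin_sub_eq]

theorem exists_finset_above_infty {j : F} (hj : Transcendental K j) [FiniteDimensional K⟮j⟯ F] :
    ∃ s : Finset (Place K F), (∀ v, v ∈ s ↔ 0 < v.ord j⁻¹) ∧
      (∑ v ∈ s, v.ord j⁻¹ = finrank K⟮j⟯ F) := by
  have hc : Transcendental K j⁻¹ := by
    intro h
    apply hj
    simpa using h.inv
  have := finiteDimensional_adjoin hj hc
  obtain ⟨s, hs, hsum, -⟩ := exists_finset_sum_ord_eq_finrank (K := K) (F := F) hc
  refine ⟨s, hs, ?_⟩
  rw [hsum, adjoin_inv_eq]

theorem sum_degree_eq_of_apply {x : F} (hx : Transcendental K x) [FiniteDimensional K⟮x⟯ F]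
    {D D' : Divisor K F} {f : F} (hf : f ≠ 0) (h : ∀ v, D v = v.ord f + D' v) :
    Divisor.degree D = Divisor.degree D' := by
  obtain ⟨E, hE, hE'⟩ := exists_divisor_of_adjoin hx hf
  have h1 : D = E + D' := by
    ext v
    rw [Finsupp.add_apply, hE, h]
  rw [h1, map_add, degree_eq_sum hx E, hE', zero_add]

/-- **Riemann-Hurwitz**: the degree of the divisor of any nonzero differential. -/
theorem degree_canonicalDivisorOf [HasCanonicalDivisor (K := K) (F := F)]
    {j : F} (hj : Transcendental K j) [FiniteDimensional K⟮j⟯ F] (S : Finset K)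
    (hS : ∀ c, c ∉ S → ∀ v : Place K F, 0 < v.ord (j - algebraMap K F c) →
      v.ord (j - algebraMap K F c) = 1)
    {ω : Ω[F⁄K]} (hω : ω ≠ 0) :
    Divisor.degree (canonicalDivisorOf hω) =
      ∑ c ∈ S, ((finrank K⟮j⟯ F : ℤ) - Nat.card {v : Place K F // 0 < v.ord (j - algebraMap K F c)})
        - finrank K⟮j⟯ F - Nat.card {v : Place K F // 0 < v.ord j⁻¹} := by
  classical
  have hj0 : j ≠ 0 := by
    rintro rfl
    exact hj isAlgebraic_zero
  have hjsub : ∀ c : K, j - algebraMap K F c ≠ 0 := by
    intro c h
    exact transcendental_sub hj c (h ▸ isAlgebraic_zero)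
  obtain ⟨f, hf0, hωf⟩ := exists_eq_smul hj hj hω
  have hdisj : ∀ (v : Place K F) (c d : K), 0 < v.ord (j - algebraMap K F c) →
      0 < v.ord (j - algebraMap K F d) → c = d := by
    intro v c d hc hd
    by_contra hcd
    have h1 : v.adicValuation (j - algebraMap K F c) < 1 := (adicValuation_lt_one_iff v).2 (Or.inr hc)
    have h2 : v.adicValuation (j - algebraMap K F d) < 1 := (adicValuation_lt_one_iff v).2 (Or.inr hd)
    have h3 : v.adicValuation (algebraMap K F (c - d)) < 1 := by
      have : algebraMap K F (c - d) = (j - algebraMap K F d) - (j - algebraMap K F c) := by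
        rw [map_sub]; ring
      rw [this]
      exact lt_of_le_of_lt (Valuation.map_sub _ _ _) (max_lt h2 h1)
    rw [adicValuation_lt_one_iff, ord_algebraMap] at h3
    rcases h3 with h3 | h3
    · rw [map_eq_zero, sub_eq_zero] at h3
      exact hcd h3
    · exact lt_irrefl _ h3
  have hdisj' : ∀ (v : Place K F) (c : K), 0 < v.ord (j - algebraMap K F c) → ¬ 0 < v.ord j⁻¹ := by
    intro v c hc h
    have h1 : j ∈ v.toValuationSubring := by
      have h2 : j - algebraMap K F c ∈ v.toValuationSubring := mem_of_ord_nonneg v hc.le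
      have := add_mem h2 (v.algebraMap_mem' c)
      rwa [sub_add_cancel] at this
    have := ord_nonneg_of_mem v h1
    rw [v.ord_inv] at h
    omega
  have hcover : ∀ v : Place K F, 0 < v.ord j⁻¹ ∨ ∃ c : K, 0 < v.ord (j - algebraMap K F c) := by
    intro v
    by_cases h : 0 < v.ord j⁻¹
    · exact Or.inl h
    · right
      rw [v.ord_inv] at h
      have h1 : j ∈ v.toValuationSubring := mem_of_ord_nonneg v (by omega)
      obtain ⟨c, hc⟩ := exists_residue_eq hj v h1
      refine ⟨c, ?_⟩
      rw [adicValuation_lt_one_iff] at hc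
      exact hc.resolve_left (hjsub c)
  -- order of `dj`
  have hord1 : ∀ (v : Place K F) (c : K), 0 < v.ord (j - algebraMap K F c) →
      v.differentialCoeff (D K F j) ≠ 0 ∧ v.ordDifferential (D K F j) =
        v.ord (j - algebraMap K F c) - 1 := by
    intro v c hc
    have h1 : D K F j = D K F (j - algebraMap K F c) := by
      rw [map_sub, Derivation.map_algebraMap, sub_zero]
    rw [h1]
    exact ordDifferential_D hj v hc.ne'
  have hord2 : ∀ (v : Place K F), 0 < v.ord j⁻¹ →
      v.differentialCoeff (D K F j) ≠ 0 ∧ v.ordDifferential (D K F j) = -v.ord j⁻¹ - 1 := by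
    intro v hv
    rw [v.ord_inv] at hv ⊢
    rw [neg_neg]
    exact ordDifferential_D hj v (by omega)
  have hdc : ∀ v : Place K F, v.differentialCoeff (D K F j) ≠ 0 := by
    intro v
    rcases hcover v with h | ⟨c, h⟩
    · exact (hord2 v h).1
    · exact (hord1 v c h).1
  have hKD : ∀ v : Place K F, canonicalDivisorOf hω v = v.ord f + v.ordDifferential (D K F j) := by
    intro v
    have := dCoordGenerates hj v
    have := nontrivial_kaehler hj
    rw [canonicalDivisorOf_apply]
    conv_lhs => rw [hωf]
    exact v.ordDifferential_smul hf0 (hdc v)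
  -- divisor of `dj`
  choose sc hsc hsc' using fun c : K => exists_finset_above hj c
  obtain ⟨si, hsi, hsi'⟩ := exists_finset_above_infty hj
  let T : Finset (Place K F) := S.biUnion sc ∪ si
  have hT : ∀ v : Place K F, v.ordDifferential (D K F j) ≠ 0 → v ∈ T := by
    intro v hv
    rcases hcover v with h | ⟨c, h⟩
    · exact Finset.mem_union_right _ ((hsi v).2 h)
    · by_cases hc : c ∈ S
      · exact Finset.mem_union_left _ (Finset.mem_biUnion.2 ⟨c, hc, (hsc c v).2 h⟩)
      · exfalso
        apply hv
        rw [(hord1 v c h).2, hS c hc v h]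
        rfl
  let D' : Divisor K F := Finsupp.onFinset T (fun v => v.ordDifferential (D K F j)) (fun v hv => hT v hv)
  have hD' : ∀ v, canonicalDivisorOf hω v = v.ord f + D' v := hKD
  rw [sum_degree_eq_of_apply hj hf0 hD', degree_eq_sum hj, Finsupp.onFinset_sum _ (by intro; rfl)]
  have hdj1 : Disjoint (S.biUnion sc) si := by
    rw [Finset.disjoint_left]
    intro v hv hv'
    obtain ⟨c, -, hc⟩ := Finset.mem_biUnion.1 hv
    exact hdisj' v c ((hsc c v).1 hc) ((hsi v).1 hv')
  have hdj2 : (S : Set K).PairwiseDisjoint sc := by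
    intro c _ d _ hcd
    rw [Function.onFun, Finset.disjoint_left]
    intro v hv hv'
    exact hcd (hdisj v c d ((hsc c v).1 hv) ((hsc d v).1 hv'))
  rw [Finset.sum_union hdj1, Finset.sum_biUnion hdj2, sub_sub, sub_eq_add_neg]
  congr 1
  · refine Finset.sum_congr rfl fun c hc => ?_
    have h1 : ∑ v ∈ sc c, v.ordDifferential (D K F j) =
        ∑ v ∈ sc c, (v.ord (j - algebraMap K F c) - 1) :=
      Finset.sum_congr rfl fun v hv => (hord1 v c ((hsc c v).1 hv)).2
    have h2 : Nat.card {v : Place K F // 0 < v.ord (j - algebraMap K F c)} = (sc c).card := by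
      rw [Nat.subtype_card (sc c) (fun v => hsc c v)]
    rw [h1, Finset.sum_sub_distrib, hsc', h2]
    simp
  · have h1 : ∑ v ∈ si, v.ordDifferential (D K F j) =
        ∑ v ∈ si, (-v.ord j⁻¹ - 1) :=
      Finset.sum_congr rfl fun v hv => (hord2 v ((hsi v).1 hv)).2
    have h2 : Nat.card {v : Place K F // 0 < v.ord j⁻¹} = si.card := by
      rw [Nat.subtype_card si (fun v => hsi v)]
    rw [h1, Finset.sum_sub_distrib, Finset.sum_neg_distrib, hsi', h2]
    simp
    ring

end Fermat.Agent.FunField
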