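import Fermat.Agent.FunField.Places

/-!
Counting places above `t = 0` by embeddings into a Laurent series field.
-/

set_option autoImplicit false

noncomputable section

namespace Fermat.Agent.FunField

open AlgebraicCurve IsDedekindDomain IntermediateField WithZero Module

section ValSub

variable {K F : Type*} [Field K] [Field F] [Algebra K F]

/-- A proper valuation subring containing a Dedekind domain with fraction field `F` is the
valuation ring of a height one prime. -/
theorem exists_eq_valuationSubring {R : Type*} [CommRing R] [IsDedekindDomain R] [Algebra R F]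
    [IsFractionRing R F] (A : ValuationSubring F) (hA : A ≠ ⊤)
    (h : ∀ r : R, algebraMap R F r ∈ A) :
    ∃ w : HeightOneSpectrum R, A = (w.valuation F).valuationSubring := by
  let f : R →+* A := (algebraMap R F).codRestrict A.toSubring h
  have hf : ∀ r, (f r : F) = algebraMap R F r := fun r => rfl
  let P : Ideal R := (IsLocalRing.maximalIdeal A).comap f
  have hPprime : P.IsPrime := Ideal.comap_isPrime f _
  have hinv : ∀ r : R, r ∉ P → (algebraMap R F r)⁻¹ ∈ A := by
    intro r hr
    have hunit : IsUnit (f r) := by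
      by_contra hc
      exact hr ((IsLocalRing.mem_maximalIdeal _).2 hc)
    obtain ⟨u, hu⟩ := hunit
    have hr0 : algebraMap R F r ≠ 0 := by
      intro h0
      have : (u : A) = 0 := by
        rw [hu]
        exact Subtype.ext h0
      exact u.ne_zero this
    have h1 : ((u⁻¹ : Aˣ) : A).1 = (algebraMap R F r)⁻¹ := by
      have h3 := congrArg Subtype.val (u.mul_inv)
      rw [hu] at h3
      have h4 : algebraMap R F r * (u⁻¹ : Aˣ).val.1 = 1 := h3
      field_simp
      rw [mul_comm]
      exact h4
    rw [← h1]
    exact Subtype.property _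
  have hPne : P ≠ ⊥ := by
    intro hP
    apply hA
    rw [eq_top_iff]
    intro x _
    obtain ⟨a, b, hb, rfl⟩ := IsFractionRing.div_surjective (A := R) x
    have hb0 : b ≠ 0 := nonZeroDivisors.ne_zero hb
    have hbP : b ∉ P := by
      rw [hP]
      simpa using hb0
    rw [div_eq_mul_inv]
    exact A.mul_mem _ _ (h a) (hinv b hbP)
  let w : HeightOneSpectrum R := ⟨P, hPprime, hPne⟩
  refine ⟨w, ?_⟩
  have hle : (w.valuation F).valuationSubring ≤ A := by
    intro x hx
    rw [Valuation.mem_valuationSubring_iff] at hx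
    obtain ⟨n, d, hnd⟩ := w.exists_primeCompl_mul_eq_of_integer x hx
    have hd0 : algebraMap R F d ≠ 0 := by
      have : (d : R) ≠ 0 := by
        intro h0
        exact d.2 (h0 ▸ P.zero_mem)
      simpa using this
    have hx' : x = algebraMap R F n * (algebraMap R F d)⁻¹ := by
      field_simp
      exact hnd
    rw [hx']
    exact A.mul_mem _ _ (h n) (hinv d d.2)
  symm
  have := w.valuationSubringAtPrime_eq_valuationSubring (K := F)
  rw [← this] at hle ⊢
  exact ValuationSubring.eq_of_le_of_ne_top _ hle hA

/-- A proper valuation subring containing `K` and `t` is the ring of a place. -/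
theorem exists_place_eq {t : F} (ht : Transcendental K t)
    [FiniteDimensional K⟮t⟯ F] [Algebra.IsSeparable K⟮t⟯ F] (A : ValuationSubring F) (hA : A ≠ ⊤)
    (hK : ∀ a : K, algebraMap K F a ∈ A) (htA : t ∈ A) :
    ∃ v : Place K F, v.toValuationSubring = A := by
  have := isPrincipalIdealRing_adjoin ht
  have := isDedekindDomain_adjoin ht
  have := isFractionRing_intClosure (K := K) t
  have := isDedekindDomain_intClosure ht
  have hR : ∀ a : Algebra.adjoin K {t}, (a : F) ∈ A := by
    intro a
    have h1 : Algebra.adjoin K {t} ≤ ({ A.toSubring with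
        algebraMap_mem' := hK } : Subalgebra K F) := by
      rw [Algebra.adjoin_le_iff, Set.singleton_subset_iff]
      exact htA
    exact h1 a.2
  have hB : ∀ b : intClosure K t, algebraMap (intClosure K t) F b ∈ A := by
    rintro ⟨b, p, hp, hpb⟩
    have : IsIntegrallyClosed A := inferInstance
    have h1 : IsIntegral A b := by
      let f : Algebra.adjoin K {t} →+* A := (algebraMap _ F).codRestrict A.toSubring hR
      refine ⟨p.map f, hp.map f, ?_⟩
      rw [Polynomial.eval₂_map]
      exact hpb
    obtain ⟨y, hy⟩ := (IsIntegrallyClosed.isIntegral_iff (K := F)).1 h1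
    change b ∈ A
    rw [← hy]
    exact y.2
  obtain ⟨w, hw⟩ := exists_eq_valuationSubring A hA hB
  exact ⟨Place.ofHeightOneSpectrum w, by rw [Place.ofHeightOneSpectrum_toValuationSubring, hw]⟩

variable {C : Type*} [Field C]

theorem orderTop_inv_add (x : LaurentSeries C) (hx : x ≠ 0) :
    x⁻¹.orderTop + x.orderTop = 0 := by
  rw [← HahnSeries.addVal_apply, ← HahnSeries.addVal_apply, ← (HahnSeries.addVal ℤ C).map_mul,
    inv_mul_cancel₀ hx, AddValuation.map_one]

/-- The valuation subring of `F` cut out by an embedding into Laurent series. -/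
def valSub (φ : F →+* LaurentSeries C) : ValuationSubring F where
  carrier := {f | 0 ≤ HahnSeries.addVal ℤ C (φ f)}
  mul_mem' := by
    intro a b ha hb
    simp only [Set.mem_setOf_eq, map_mul, AddValuation.map_mul] at *
    exact add_nonneg ha hb
  one_mem' := by simp
  add_mem' := by
    intro a b ha hb
    simp only [Set.mem_setOf_eq, map_add] at *
    exact le_trans (le_min ha hb) (AddValuation.map_add _ _ _)
  zero_mem' := by simp
  neg_mem' := by
    intro a ha
    simp only [Set.mem_setOf_eq, map_neg, AddValuation.map_neg] at *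
    exact ha
  mem_or_inv_mem' := by
    intro x
    rcases eq_or_ne x 0 with rfl | hx
    · left; simp
    have h1 : φ x ≠ 0 := by simpa using hx
    simp only [Set.mem_setOf_eq, map_inv₀]
    have h2 := orderTop_inv_add (φ x) h1
    rw [← HahnSeries.addVal_apply, ← HahnSeries.addVal_apply] at h2
    rcases le_total 0 (HahnSeries.addVal ℤ C (φ x)) with h | h
    · exact Or.inl h
    · right
      by_contra hc
      rw [not_le] at hc
      have h3 : HahnSeries.addVal ℤ C (φ x) ≠ ⊤ := by
        rw [AddValuation.ne_top_iff]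
        exact h1
      lift HahnSeries.addVal ℤ C (φ x) to ℤ using h3 with a
      have h4 : HahnSeries.addVal ℤ C (φ x)⁻¹ ≠ ⊤ := ne_top_of_lt hc
      lift HahnSeries.addVal ℤ C (φ x)⁻¹ to ℤ using h4 with b
      norm_cast at *
      omega

theorem mem_valSub {φ : F →+* LaurentSeries C} {f : F} :
    f ∈ valSub φ ↔ 0 ≤ (φ f).orderTop := Iff.rfl

theorem mem_valSub_iff_order {φ : F →+* LaurentSeries C} {f : F} (hf : f ≠ 0) :
    f ∈ valSub φ ↔ 0 ≤ (φ f).order := by
  rw [mem_valSub, ← HahnSeries.order_eq_orderTop_of_ne_zero (by simpa using hf)]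
  exact_mod_cast Iff.rfl

theorem order_map_mul (φ : F →+* LaurentSeries C) {f g : F} (hf : f ≠ 0) (hg : g ≠ 0) :
    (φ (f * g)).order = (φ f).order + (φ g).order := by
  rw [map_mul, HahnSeries.order_mul (by simpa using hf) (by simpa using hg)]

theorem order_map_inv (φ : F →+* LaurentSeries C) {f : F} (hf : f ≠ 0) :
    (φ f⁻¹).order = -(φ f).order := by
  have := order_map_mul φ (inv_ne_zero hf) hf
  rw [inv_mul_cancel₀ hf, map_one, HahnSeries.order_one] at this
  omega

theorem order_map_pow (φ : F →+* LaurentSeries C) {f : F} (hf : f ≠ 0) (n : ℕ) :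
    (φ (f ^ n)).order = n * (φ f).order := by
  induction n with
  | zero => simp
  | succ n ih =>
    rw [pow_succ, order_map_mul φ (pow_ne_zero n hf) hf, ih]
    push_cast
    ring

theorem order_map_zpow (φ : F →+* LaurentSeries C) {f : F} (hf : f ≠ 0) (n : ℤ) :
    (φ (f ^ n)).order = n * (φ f).order := by
  cases n with
  | ofNat n => simpa using order_map_pow φ hf n
  | negSucc n =>
    rw [zpow_negSucc, order_map_inv φ (pow_ne_zero _ hf), order_map_pow φ hf]
    simp [Int.negSucc_eq]
    ring

/-- If `valSub φ` is the valuation ring of `v`, then `order ∘ φ` is a multiple of `v.ord`. -/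
theorem order_eq_mul_ord (φ : F →+* LaurentSeries C) (v : Place K F)
    (hv : v.toValuationSubring = valSub φ) :
    ∃ c : ℕ, ∀ f : F, f ≠ 0 → (φ f).order = c * v.ord f := by
  obtain ⟨π, hπ⟩ := IsDiscreteValuationRing.exists_irreducible v.toValuationSubring
  have hunit : ∀ u : v.toValuationSubringˣ, (φ ((u : v.toValuationSubring) : F)).order = 0 := by
    intro u
    have h0 : ((u : v.toValuationSubring) : F) ≠ 0 := by
      intro h
      exact u.ne_zero (Subtype.ext h)
    have h1 : ((u : v.toValuationSubring) : F) ∈ valSub φ := hv ▸ Subtype.property _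
    have h2 : (((u⁻¹ : v.toValuationSubringˣ) : v.toValuationSubring) : F) ∈ valSub φ :=
      hv ▸ Subtype.property _
    have h3 : (((u⁻¹ : v.toValuationSubringˣ) : v.toValuationSubring) : F) =
        ((u : v.toValuationSubring) : F)⁻¹ := by
      have h3 := congrArg Subtype.val (u.mul_inv)
      have h4 : ((u : v.toValuationSubring) : F) * (u⁻¹ : v.toValuationSubringˣ).val.1 = 1 := h3
      field_simp
      rw [mul_comm]
      exact h4
    rw [h3, mem_valSub_iff_order (inv_ne_zero h0), order_map_inv φ h0] at h2
    rw [mem_valSub_iff_order h0] at h1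
    omega
  have hπ0 : (π : F) ≠ 0 := by
    intro h
    exact hπ.ne_zero (Subtype.ext h)
  have hc : 0 ≤ (φ π).order := by
    rw [← mem_valSub_iff_order hπ0, ← hv]
    exact π.2
  refine ⟨(φ π).order.toNat, fun f hf => ?_⟩
  rw [Int.toNat_of_nonneg hc]
  obtain ⟨u, hu⟩ := v.exists_unit_mul_zpow hf hπ
  have h0 : ((u : v.toValuationSubring) : F) ≠ 0 := by
    intro h
    exact u.ne_zero (Subtype.ext h)
  conv_lhs => rw [hu]
  rw [order_map_mul φ h0 (zpow_ne_zero _ hπ0), hunit, order_map_zpow φ hπ0, zero_add, mul_comm]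

end ValSub

section Count

variable {K F C : Type*} [Field K] [Field F] [Algebra K F] [Field C]

theorem exists_expansion (v : Place K F)
    (hres : ∀ x ∈ v.toValuationSubring, ∃ a : K, v.adicValuation (x - algebraMap K F a) < 1)
    {π : v.toValuationSubring} (hπ : Irreducible π) (e : ℕ) :
    ∀ f ∈ v.toValuationSubring, ∃ (a : ℕ → K) (g : F), g ∈ v.toValuationSubring ∧
      f = ∑ i ∈ Finset.range e, algebraMap K F (a i) * (π : F) ^ i + (π : F) ^ e * g := by
  induction e with
  | zero =>
    intro f hf
    exact ⟨fun _ => 0, f, hf, by simp⟩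
  | succ e ih =>
    intro f hf
    obtain ⟨a, g, hg, hfg⟩ := ih f hf
    obtain ⟨b, hb⟩ := hres g hg
    have hπ0 : (π : F) ≠ 0 := by
      intro h
      exact hπ.ne_zero (Subtype.ext h)
    refine ⟨fun i => if i < e then a i else b, (g - algebraMap K F b) / π, ?_, ?_⟩
    · rw [adicValuation_lt_one_iff] at hb
      rcases hb with hb | hb
      · rw [hb, zero_div]
        exact zero_mem _
      · have hne : g - algebraMap K F b ≠ 0 := by
          intro h
          rw [h] at hb
          simp at hb
        rw [mem_iff_ord_nonneg, div_eq_mul_inv, v.ord_mul hne (inv_ne_zero hπ0), v.ord_inv,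
          v.ord_coe_irreducible hπ]
        omega
    · rw [Finset.sum_range_succ]
      have h1 : ∑ i ∈ Finset.range e, algebraMap K F (if i < e then a i else b) * (π : F) ^ i =
          ∑ i ∈ Finset.range e, algebraMap K F (a i) * (π : F) ^ i := by
        refine Finset.sum_congr rfl fun i hi => ?_
        rw [if_pos (Finset.mem_range.1 hi)]
      have h2 : (fun i => if i < e then a i else b) e = b := if_neg (lt_irrefl _)
      rw [h1, h2]
      conv_lhs => rw [hfg]
      field_simp
      ring

/-- The number of embeddings into a Laurent series field inducing a given place is at most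
the ramification index of that place. -/
theorem card_le_ord {X : Type*} [Fintype X] (φ : X → (F →+* LaurentSeries C))
    (hφ : Function.Injective φ) (v : Place K F)
    (hv : ∀ x, v.toValuationSubring = valSub (φ x)) {t : F} (ht : 0 < v.ord t)
    (κ : K → LaurentSeries C) (hκ : ∀ x a, φ x (algebraMap K F a) = κ a)
    (τ : LaurentSeries C) (hτ : ∀ x, φ x t = τ)
    (hres : ∀ x ∈ v.toValuationSubring, ∃ a : K, v.adicValuation (x - algebraMap K F a) < 1) :
    (Fintype.card X : ℤ) ≤ v.ord t := by
  classical
  by_contra hlt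
  rw [not_le] at hlt
  obtain ⟨π, hπ⟩ := IsDiscreteValuationRing.exists_irreducible v.toValuationSubring
  have hπ0 : (π : F) ≠ 0 := by
    intro h
    exact hπ.ne_zero (Subtype.ext h)
  have ht0 : t ≠ 0 := by
    rintro rfl
    simp at ht
  have hXne : Nonempty X := by
    by_contra hX
    rw [not_nonempty_iff] at hX
    simp at hlt
    omega
  set e : ℕ := (v.ord t).toNat with he
  have he' : (e : ℤ) = v.ord t := Int.toNat_of_nonneg ht.le
  -- a nonzero relation
  let T : (X → LaurentSeries C) →ₗ[LaurentSeries C] (Fin e → LaurentSeries C) :=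
    LinearMap.pi fun i => ∑ x, (φ x ((π : F) ^ (i : ℕ))) • LinearMap.proj x
  have hT : ∀ l i, T l i = ∑ x, φ x ((π : F) ^ (i : ℕ)) * l x := by
    intro l i
    simp [T]
  have hker : LinearMap.ker T ≠ ⊥ := by
    apply LinearMap.ker_ne_bot_of_finrank_lt
    rw [finrank_fintype_fun_eq_card, finrank_fintype_fun_eq_card, Fintype.card_fin]
    omega
  obtain ⟨l, hl, hl0⟩ := Submodule.exists_mem_ne_zero_of_ne_bot hker
  rw [LinearMap.mem_ker] at hl
  have hl' : ∀ i < e, ∑ x, φ x ((π : F) ^ i) * l x = 0 := by
    intro i hi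
    rw [← hT l ⟨i, hi⟩, hl]
    rfl
  let L : F → LaurentSeries C := fun f => ∑ x, φ x f * l x
  have hadd : ∀ f g, L (f + g) = L f + L g := by
    intro f g
    simp only [L, map_add, add_mul, Finset.sum_add_distrib]
  have hκL : ∀ a f, L (algebraMap K F a * f) = κ a * L f := by
    intro a f
    simp only [L, map_mul, hκ, Finset.mul_sum, mul_assoc]
  have htL : ∀ f, L (t * f) = τ * L f := by
    intro f
    simp only [L, map_mul, hτ, Finset.mul_sum, mul_assoc]
  have hL0 : L 0 = 0 := by simp [L]
  have hsumL : ∀ (s : Finset ℕ) (f : ℕ → F), L (∑ i ∈ s, f i) = ∑ i ∈ s, L (f i) := by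
    intro s f
    induction s using Finset.induction_on with
    | empty => simp [hL0]
    | insert a s ha ih => rw [Finset.sum_insert ha, Finset.sum_insert ha, hadd, ih]
  -- key recursion
  have hrec : ∀ f ∈ v.toValuationSubring, ∃ g ∈ v.toValuationSubring, L f = τ * L g := by
    intro f hf
    obtain ⟨a, g, hg, hfg⟩ := exists_expansion v hres hπ e f hf
    refine ⟨(π : F) ^ e * t⁻¹ * g, ?_, ?_⟩
    · rcases eq_or_ne g 0 with rfl | hg0
      · simp
      rw [mem_iff_ord_nonneg, v.ord_mul (mul_ne_zero (pow_ne_zero _ hπ0) (inv_ne_zero ht0)) hg0,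
        v.ord_mul (pow_ne_zero _ hπ0) (inv_ne_zero ht0), v.ord_inv, ← zpow_natCast, v.ord_zpow,
        v.ord_coe_irreducible hπ, he']
      have := ord_nonneg_of_mem v hg
      omega
    · rw [← htL]
      have h2 : t * ((π : F) ^ e * t⁻¹ * g) = (π : F) ^ e * g := by
        field_simp
      rw [h2]
      conv_lhs => rw [hfg, hadd, hsumL]
      have h3 : ∑ i ∈ Finset.range e, L (algebraMap K F (a i) * (π : F) ^ i) = 0 := by
        refine Finset.sum_eq_zero fun i hi => ?_
        rw [hκL]
        have : L ((π : F) ^ i) = 0 := hl' i (Finset.mem_range.1 hi)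
        rw [this, mul_zero]
      rw [h3, zero_add]
  -- lower bound of orders
  obtain ⟨x₀⟩ := hXne
  have hτ0 : τ ≠ 0 := by
    rw [← hτ x₀]
    simpa using ht0
  have hm : 0 < τ.order := by
    have h1 : t⁻¹ ∉ valSub (φ x₀) := by
      rw [← hv x₀, mem_iff_ord_nonneg, v.ord_inv]
      omega
    rw [mem_valSub_iff_order (inv_ne_zero ht0), order_map_inv _ ht0, hτ] at h1
    omega
  obtain ⟨N, hN⟩ : ∃ N : ℤ, ∀ x, -N ≤ (l x).order := by
    refine ⟨∑ x, |(l x).order|, fun x => ?_⟩
    have h1 : |(l x).order| ≤ ∑ x, |(l x).order| :=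
      Finset.single_le_sum (f := fun x => |(l x).order|) (fun _ _ => abs_nonneg _) (Finset.mem_univ x)
    have h2 := neg_abs_le (l x).order
    omega
  have hbase : ∀ f ∈ v.toValuationSubring, ((-N : ℤ) : WithTop ℤ) ≤ HahnSeries.addVal ℤ C (L f) := by
    intro f hf
    apply AddValuation.map_le_sum
    intro x _
    rw [AddValuation.map_mul, ← zero_add (((-N : ℤ) : WithTop ℤ))]
    refine add_le_add ?_ ?_
    · have : f ∈ valSub (φ x) := hv x ▸ hf
      exact this
    · rcases eq_or_ne (l x) 0 with h | h
      · rw [h, AddValuation.map_zero]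
        exact le_top
      · rw [HahnSeries.addVal_apply, ← HahnSeries.order_eq_orderTop_of_ne_zero h]
        exact_mod_cast hN x
  have hind : ∀ k : ℕ, ∀ f ∈ v.toValuationSubring, L f ≠ 0 → -N + k * τ.order ≤ (L f).order := by
    intro k
    induction k with
    | zero =>
      intro f hf hLf
      have := hbase f hf
      rw [HahnSeries.addVal_apply, ← HahnSeries.order_eq_orderTop_of_ne_zero hLf] at this
      simp only [Nat.cast_zero, zero_mul, add_zero]
      exact_mod_cast this
    | succ k ih =>
      intro f hf hLf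
      obtain ⟨g, hg, hfg⟩ := hrec f hf
      have hLg : L g ≠ 0 := by
        intro h
        rw [h, mul_zero] at hfg
        exact hLf hfg
      rw [hfg, HahnSeries.order_mul hτ0 hLg]
      have := ih g hg hLg
      push_cast
      linarith
  have hzero : ∀ f ∈ v.toValuationSubring, L f = 0 := by
    intro f hf
    by_contra hLf
    have h1 := hind ((L f).order + N + 1).toNat f hf hLf
    have h2 := hind 0 f hf hLf
    simp only [Nat.cast_zero, zero_mul, add_zero] at h2
    rw [Int.toNat_of_nonneg (by omega)] at h1
    nlinarith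
  have hall : ∀ f : F, L f = 0 := by
    intro f
    rcases eq_or_ne f 0 with rfl | hf0
    · exact hL0
    obtain ⟨k, hk⟩ : ∃ k : ℕ, t ^ k * f ∈ v.toValuationSubring := by
      refine ⟨(-v.ord f).toNat, ?_⟩
      rw [mem_iff_ord_nonneg, v.ord_mul (pow_ne_zero _ ht0) hf0, ← zpow_natCast, v.ord_zpow]
      have h1 : -v.ord f ≤ ((-v.ord f).toNat : ℤ) := Int.self_le_toNat _
      have h2 : (0 : ℤ) ≤ ((-v.ord f).toNat : ℤ) := Int.natCast_nonneg _
      nlinarith
    have h3 : ∀ k : ℕ, L (t ^ k * f) = τ ^ k * L f := by
      intro k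
      induction k with
      | zero => simp
      | succ k ih => rw [pow_succ', mul_assoc, htL, ih]; ring
    have h4 := hzero _ hk
    rw [h3] at h4
    exact (mul_eq_zero.1 h4).resolve_left (pow_ne_zero _ hτ0)
  -- independence of characters
  have hind2 := linearIndependent_monoidHom F (LaurentSeries C)
  have hinj : Function.Injective (fun x => (φ x : F →* LaurentSeries C)) := by
    intro x y hxy
    apply hφ
    ext1 f
    exact DFunLike.congr_fun hxy f
  have hind3 := hind2.comp _ hinj
  rw [Fintype.linearIndependent_iff] at hind3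
  apply hl0
  funext x
  refine hind3 l ?_ x
  funext f
  have := hall f
  simp only [Function.comp, Finset.sum_apply, Pi.smul_apply, Pi.zero_apply, smul_eq_mul]
  rw [← this]
  refine Finset.sum_congr rfl fun y _ => ?_
  rw [mul_comm]
  rfl

/-- If there are `[F:K(t)]` embeddings of `F` into a Laurent series field, agreeing on `K(t)`,
then they cover all places above `t = 0`, each with multiplicity its ramification index. -/
theorem exists_place_map [IsAlgClosed K] {t : F} (ht : Transcendental K t)
    [FiniteDimensional K⟮t⟯ F] [Algebra.IsSeparable K⟮t⟯ F] {X : Type*} [Fintype X] [DecidableEq X]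
    (hX : Fintype.card X = finrank K⟮t⟯ F) (φ : X → (F →+* LaurentSeries C))
    (hφ : Function.Injective φ)
    (κ : K → LaurentSeries C) (hκ : ∀ x a, φ x (algebraMap K F a) = κ a)
    (hκ0 : ∀ a, 0 ≤ (κ a).orderTop)
    (τ : LaurentSeries C) (hτ : ∀ x, φ x t = τ) (hτ0 : 0 < τ.order) :
    ∃ p : X → Place K F, (∀ x, (p x).toValuationSubring = valSub (φ x)) ∧
      (∀ x, 0 < (p x).ord t) ∧
      ∀ v : Place K F, 0 < v.ord t → (Nat.card {x // p x = v} : ℤ) = v.ord t := by
  classical
  have ht0 : t ≠ 0 := by
    rintro rfl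
    exact ht isAlgebraic_zero
  have hmem : ∀ x, t ∈ valSub (φ x) := by
    intro x
    rw [mem_valSub_iff_order ht0, hτ]
    exact hτ0.le
  have hninv : ∀ x, t⁻¹ ∉ valSub (φ x) := by
    intro x
    rw [mem_valSub_iff_order (inv_ne_zero ht0), order_map_inv _ ht0, hτ]
    omega
  have hex : ∀ x, ∃ v : Place K F, v.toValuationSubring = valSub (φ x) := by
    intro x
    refine exists_place_eq ht (valSub (φ x)) ?_ ?_ (hmem x)
    · intro h
      apply hninv x
      rw [h]
      exact ValuationSubring.mem_top _
    · intro a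
      rw [mem_valSub, hκ]
      exact hκ0 a
  choose p hp using hex
  have hpos : ∀ x, 0 < (p x).ord t := by
    intro x
    have h1 : t ∈ (p x).toValuationSubring := hp x ▸ hmem x
    have h2 : t⁻¹ ∉ (p x).toValuationSubring := hp x ▸ hninv x
    rw [mem_iff_ord_nonneg] at h1 h2
    rw [(p x).ord_inv] at h2
    omega
  refine ⟨p, hp, hpos, ?_⟩
  obtain ⟨s, hs, hsum, hres⟩ := exists_finset_sum_ord_eq_finrank (K := K) (F := F) ht
  have hle : ∀ v ∈ s, (Fintype.card {x // p x = v} : ℤ) ≤ v.ord t := by
    intro v hv
    refine card_le_ord (fun x : {x // p x = v} => φ x.1) ?_ v ?_ ((hs v).1 hv) κ ?_ τ ?_ (hres v hv)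
    · intro x y hxy
      exact Subtype.ext (hφ hxy)
    · intro x
      rw [← hp x.1, x.2]
    · intro x a
      exact hκ _ _
    · intro x
      exact hτ _
  have hcard : (Fintype.card X : ℤ) = ∑ v ∈ s, (Fintype.card {x // p x = v} : ℤ) := by
    have h1 : Fintype.card X = ∑ v ∈ s, Fintype.card {x // p x = v} := by
      rw [← Finset.card_univ, Finset.card_eq_sum_card_fiberwise (f := p) (t := s)]
      · refine Finset.sum_congr rfl fun v _ => ?_
        rw [Fintype.card_subtype]
      · intro x _
        exact (hs _).2 (hpos x)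
    rw [h1]
    push_cast
    rfl
  have heq : ∑ v ∈ s, (Fintype.card {x // p x = v} : ℤ) = ∑ v ∈ s, v.ord t := by
    rw [← hcard, hsum, hX]
  intro v hv
  have := (Finset.sum_eq_sum_iff_of_le hle).1 heq v ((hs v).2 hv)
  rw [Nat.card_eq_fintype_card, this]

/-- With an additional rotation symmetry permuting the embeddings, the fibres of the map from
embeddings to places are the orbits of the rotation. -/
theorem exists_place_map_orbit [IsAlgClosed K] {t : F} (ht : Transcendental K t)
    [FiniteDimensional K⟮t⟯ F] [Algebra.IsSeparable K⟮t⟯ F] {X : Type*} [Fintype X] [DecidableEq X]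
    (hX : Fintype.card X = finrank K⟮t⟯ F) (φ : X → (F →+* LaurentSeries C))
    (hφ : Function.Injective φ)
    (κ : K → LaurentSeries C) (hκ : ∀ x a, φ x (algebraMap K F a) = κ a)
    (hκ0 : ∀ a, 0 ≤ (κ a).orderTop)
    (τ : LaurentSeries C) (hτ : ∀ x, φ x t = τ) {m : ℕ} (hm : 0 < m) (hτ0 : τ.order = m)
    {ζ : C} (hζ : IsPrimitiveRoot ζ m) (σ : Equiv.Perm X)
    (hσ : ∀ x f k, (φ (σ x) f).coeff k = ζ ^ k * (φ x f).coeff k) :
    ∃ p : X → Place K F, (∀ x, 0 < (p x).ord t) ∧
      (∀ v : Place K F, 0 < v.ord t → ∃ x, p x = v) ∧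
      (∀ x y, p x = p y ↔ σ.SameCycle x y) ∧
      ∀ v : Place K F, 0 < v.ord t → (Nat.card {x // p x = v} : ℤ) = v.ord t := by
  classical
  have hτpos : 0 < τ.order := by rw [hτ0]; exact_mod_cast hm
  obtain ⟨p, hp, hpos, hcard⟩ := exists_place_map ht hX φ hφ κ hκ hκ0 τ hτ hτpos
  have hζ0 : ζ ≠ 0 := hζ.ne_zero hm.ne'
  have ht0 : t ≠ 0 := by
    rintro rfl
    exact ht isAlgebraic_zero
  have hσp : ∀ x, p (σ x) = p x := by
    intro x
    apply Place.ext
    rw [hp, hp]
    ext f
    rcases eq_or_ne f 0 with rfl | hf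
    · simp
    have hcoeff : ∀ k, (φ (σ x) f).coeff k = 0 ↔ (φ x f).coeff k = 0 := by
      intro k
      rw [hσ]
      simp [zpow_ne_zero k hζ0]
    have hne : φ x f ≠ 0 := by simpa using hf
    have hne' : φ (σ x) f ≠ 0 := by simpa using hf
    have h1 : (φ (σ x) f).order = (φ x f).order := by
      apply le_antisymm
      · apply HahnSeries.order_le_of_coeff_ne_zero
        rw [ne_eq, hcoeff]
        exact HahnSeries.coeff_order_eq_zero.not.2 hne
      · apply HahnSeries.order_le_of_coeff_ne_zero
        rw [ne_eq, ← hcoeff]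
        exact HahnSeries.coeff_order_eq_zero.not.2 hne'
    rw [mem_valSub_iff_order hf, mem_valSub_iff_order hf, h1]
  have hσzp : ∀ (n : ℤ) x, p ((σ ^ n) x) = p x := by
    intro n
    induction n using Int.induction_on with
    | zero => intro x; simp
    | succ i ih =>
      intro x
      rw [zpow_add_one, Equiv.Perm.mul_apply, ih, hσp]
    | pred i ih =>
      intro x
      rw [zpow_sub_one, Equiv.Perm.mul_apply, ih, ← hσp (σ⁻¹ x)]
      simp
  have hσpow : ∀ (r : ℕ) x f k, (φ ((σ ^ r) x) f).coeff k = (ζ ^ r) ^ k * (φ x f).coeff k := by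
    intro r
    induction r with
    | zero => intro x f k; simp
    | succ r ih =>
      intro x f k
      rw [pow_succ, Equiv.Perm.mul_apply, ih, hσ, pow_succ, mul_zpow]
      ring
  refine ⟨p, hpos, ?_, ?_, hcard⟩
  · intro v hv
    have h1 := hcard v hv
    by_contra hc
    push Not at hc
    have : IsEmpty {x // p x = v} := ⟨fun x => hc x.1 x.2⟩
    rw [Nat.card_of_isEmpty] at h1
    simp at h1
    omega
  · intro x y
    constructor
    · intro hxy
      -- the orbit of `x` has size `r`; show `e ≤ r`
      set v := p x with hv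
      obtain ⟨c, hc⟩ := order_eq_mul_ord (φ x) v (by rw [hv, hp])
      set r := MulAction.period σ x with hr
      have hrx : (σ ^ r) x = x := MulAction.pow_period_smul σ x
      obtain ⟨π, hπ⟩ := IsDiscreteValuationRing.exists_irreducible v.toValuationSubring
      have hπ0 : (π : F) ≠ 0 := by
        intro h
        exact hπ.ne_zero (Subtype.ext h)
      have hcπ : (φ x π).order = c := by
        rw [hc _ hπ0, v.ord_coe_irreducible hπ, mul_one]
      have hζc : ζ ^ ((r : ℤ) * c) = 1 := by
        have h1 := hσpow r x π c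
        rw [hrx] at h1
        have h2 : (φ x π).coeff c ≠ 0 := by
          rw [← hcπ]
          exact HahnSeries.coeff_order_eq_zero.not.2 (by simpa using hπ0)
        have h3 : (ζ ^ r) ^ (c : ℤ) = 1 := by
          have h4 : ((ζ ^ r) ^ (c : ℤ) - 1) * (φ x π).coeff c = 0 := by
            rw [sub_mul, ← h1]
            ring
          have := (mul_eq_zero.1 h4).resolve_right h2
          exact sub_eq_zero.1 this
        rw [zpow_mul, zpow_natCast ζ r]
        exact h3
      rw [hζ.zpow_eq_one_iff_dvd] at hζc
      have hmce : (m : ℤ) = c * v.ord t := by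
        rw [← hτ0, ← hτ x, hc t ht0]
      have hc0 : (c : ℤ) ≠ 0 := by
        intro h
        rw [h, zero_mul] at hmce
        omega
      have hdvd : v.ord t ∣ (r : ℤ) := by
        rw [hmce, mul_comm (r : ℤ)] at hζc
        exact (mul_dvd_mul_iff_left hc0).1 hζc
      have hrcard : r = Nat.card (MulAction.orbit (Subgroup.zpowers σ) x) := by
        rw [hr, MulAction.period_eq_minimalPeriod, MulAction.minimalPeriod_eq_card,
          Nat.card_eq_fintype_card]
      have hrpos : 0 < r := by
        rw [hrcard]
        have : Nonempty (MulAction.orbit (Subgroup.zpowers σ) x) := ⟨⟨x, MulAction.mem_orbit_self x⟩⟩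
        exact Nat.card_pos
      have hle : v.ord t ≤ r := Int.le_of_dvd (by exact_mod_cast hrpos) hdvd
      have hsub : MulAction.orbit (Subgroup.zpowers σ) x ⊆ {y | p y = v} := by
        rintro _ ⟨⟨_, n, rfl⟩, rfl⟩
        exact hσzp n x
      have hfin : ({y | p y = v} : Set X).Finite := Set.toFinite _
      have heq : MulAction.orbit (Subgroup.zpowers σ) x = {y | p y = v} := by
        refine Set.eq_of_subset_of_ncard_le hsub ?_ hfin
        have h1 : (({y | p y = v} : Set X).ncard : ℤ) = v.ord t := by
          rw [← hcard v (hpos x)]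
          rfl
        have h2 : (MulAction.orbit (Subgroup.zpowers σ) x).ncard = r := by
          rw [hrcard]
          rfl
        rw [h2]
        exact_mod_cast (h1.trans_le hle)
      have hy : y ∈ ({y | p y = v} : Set X) := hxy.symm
      rw [← heq] at hy
      obtain ⟨⟨_, n, rfl⟩, hn⟩ := hy
      exact ⟨n, hn⟩
    · rintro ⟨n, rfl⟩
      rw [hσzp]

end Count

end Fermat.Agent.FunField
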