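import Mathlib
import Fermat.Prelude.Def_AlgebraicCurve_IsCurveOver
import Fermat.Prelude.Def_AlgebraicCurve_Repartitions

/-!
Places of a field versus height one primes of a Dedekind domain, and the fundamental
identity `∑ ord_v(t) = [F : K(t)]` over places with `ord_v(t) > 0`.
-/

set_option autoImplicit false

noncomputable section

namespace Fermat.Agent.FunField

open AlgebraicCurve IsDedekindDomain IntermediateField WithZero Module

variable {K F : Type*} [Field K] [Field F] [Algebra K F]

section HeightOne

variable {R : Type*} [CommRing R] [IsDedekindDomain R] [Algebra R F] [IsFractionRing R F]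
  [Algebra K R] [IsScalarTower K R F]

theorem mem_place_ofHeightOne {w : HeightOneSpectrum R} {x : F} :
    x ∈ (Place.ofHeightOneSpectrum (K := K) (F := F) w).toValuationSubring ↔
      w.valuation F x ≤ 1 := by
  rw [Place.ofHeightOneSpectrum_toValuationSubring, Valuation.mem_valuationSubring_iff]

theorem adicValuation_ofHeightOneSpectrum (w : HeightOneSpectrum R) (x : F) :
    (Place.ofHeightOneSpectrum (K := K) w).adicValuation x = w.valuation F x := by
  set v := Place.ofHeightOneSpectrum (K := K) (F := F) w with hv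
  have hmem : ∀ y : F, y ∈ v.toValuationSubring ↔ w.valuation F y ≤ 1 := fun y =>
    mem_place_ofHeightOne
  have hunit : ∀ y : F, w.valuation F y = 1 → v.adicValuation y = 1 := by
    intro y hy
    have hy0 : y ≠ 0 := by
      rintro rfl
      simp at hy
    have hy1 : y ∈ v.toValuationSubring := (hmem y).2 hy.le
    have hy2 : y⁻¹ ∈ v.toValuationSubring := (hmem _).2 (by rw [map_inv₀, hy, inv_one])
    have : IsUnit (⟨y, hy1⟩ : v.toValuationSubring) := by
      refine IsUnit.of_mul_eq_one ⟨y⁻¹, hy2⟩ ?_
      ext
      simp [hy0]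
    exact (v.adicValuation_coe_eq_one_iff ⟨y, hy1⟩).2 this
  obtain ⟨π, hπ⟩ := w.valuation_exists_uniformizer F
  have hπ0 : π ≠ 0 := by
    rintro rfl
    rw [map_zero] at hπ
    exact exp_ne_zero hπ.symm
  have hπmem : π ∈ v.toValuationSubring := (hmem π).2 (by rw [hπ]; decide)
  have hirr : Irreducible (⟨π, hπmem⟩ : v.toValuationSubring) := by
    constructor
    · intro hu
      have h1 := (v.adicValuation_coe_eq_one_iff ⟨π, hπmem⟩).2 hu
      obtain ⟨u, hu⟩ := hu
      have h2 : (u⁻¹ : v.toValuationSubringˣ).val.1 = π⁻¹ := by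
        have h3 := congrArg Subtype.val (u.mul_inv)
        rw [hu] at h3
        have h4 : π * (u⁻¹ : v.toValuationSubringˣ).val.1 = 1 := h3
        field_simp
        rw [mul_comm]
        exact h4
      have h5 := (hmem _).1 (u⁻¹ : v.toValuationSubringˣ).val.2
      rw [h2, map_inv₀, hπ] at h5
      revert h5
      decide
    · intro a b hab
      have hab' : π = a.1 * b.1 := congrArg Subtype.val hab
      have ha := (hmem _).1 a.2
      have hb := (hmem _).1 b.2
      have h := hπ
      rw [hab', map_mul] at h
      have key : w.valuation F a.1 = 1 ∨ w.valuation F b.1 = 1 := by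
        have ha0 : w.valuation F a.1 ≠ 0 := by
          intro h0
          rw [h0, zero_mul] at h
          exact absurd h.symm (by decide)
        have hb0 : w.valuation F b.1 ≠ 0 := by
          intro h0
          rw [h0, mul_zero] at h
          exact absurd h.symm (by decide)
        have h1 : log (w.valuation F a.1) + log (w.valuation F b.1) = -1 := by
          rw [← log_mul ha0 hb0, h, log_exp]
        have h2 : log (w.valuation F a.1) ≤ 0 := by
          rw [← log_one (M := ℤ)]
          exact (log_le_log ha0 one_ne_zero).2 ha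
        have h3 : log (w.valuation F b.1) ≤ 0 := by
          rw [← log_one (M := ℤ)]
          exact (log_le_log hb0 one_ne_zero).2 hb
        rcases (show log (w.valuation F a.1) = 0 ∨ log (w.valuation F b.1) = 0 by omega) with h4 | h4
        · left
          rw [← exp_log ha0, h4, exp_zero]
        · right
          rw [← exp_log hb0, h4, exp_zero]
      rcases key with h1 | h1
      · left
        exact (v.adicValuation_coe_eq_one_iff a).1 (hunit _ h1)
      · right
        exact (v.adicValuation_coe_eq_one_iff b).1 (hunit _ h1)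
  have hvπ : v.adicValuation π = exp (-1 : ℤ) := v.adicValuation_coe_irreducible hirr
  rcases eq_or_ne x 0 with rfl | hx
  · simp
  have hwx : w.valuation F x ≠ 0 := (Valuation.ne_zero_iff _).2 hx
  set n := log (w.valuation F x) with hn
  have h1 : w.valuation F (x * π ^ n) = 1 := by
    rw [map_mul, map_zpow₀, hπ, ← exp_log hwx, ← hn, ← exp_zsmul, ← exp_add]
    simp
  have h2 := hunit _ h1
  rw [map_mul, map_zpow₀, hvπ, ← exp_zsmul] at h2
  have h3 : w.valuation F x = exp n := (exp_log hwx).symm
  rw [h3]
  have h4 : v.adicValuation x * exp (n • (-1 : ℤ)) * exp n = exp n := by rw [h2, one_mul]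
  rw [mul_assoc, ← exp_add] at h4
  simpa using h4

theorem ord_ofHeightOneSpectrum (w : HeightOneSpectrum R) (x : F) :
    (Place.ofHeightOneSpectrum (K := K) w).ord x = -log (w.valuation F x) := by
  rw [Place.ord, adicValuation_ofHeightOneSpectrum]

/-- A place containing (the image of) a Dedekind domain `R` with fraction field `F` comes from a
height one prime of `R`. -/
theorem exists_heightOneSpectrum (v : Place K F)
    (h : ∀ r : R, algebraMap R F r ∈ v.toValuationSubring) :
    ∃ w : HeightOneSpectrum R, v = Place.ofHeightOneSpectrum w ∧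
      ∀ r : R, r ∈ w.asIdeal ↔ v.adicValuation (algebraMap R F r) < 1 := by
  let f : R →+* v.toValuationSubring := (algebraMap R F).codRestrict v.toValuationSubring.toSubring h
  have hf : ∀ r, (f r : F) = algebraMap R F r := fun r => rfl
  let P : Ideal R := (IsLocalRing.maximalIdeal v.toValuationSubring).comap f
  have hPprime : P.IsPrime := Ideal.comap_isPrime f _
  have hmemP : ∀ r, r ∈ P ↔ v.adicValuation (algebraMap R F r) < 1 := by
    intro r
    change f r ∈ IsLocalRing.maximalIdeal v.toValuationSubring ↔ _
    rw [IsLocalRing.mem_maximalIdeal, mem_nonunits_iff, ← v.adicValuation_coe_eq_one_iff, hf]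
    have := v.adicValuation_le_one_of_mem (h r)
    exact ⟨fun h => lt_of_le_of_ne this h, fun h => ne_of_lt h⟩
  have hPne : P ≠ ⊥ := by
    intro hP
    apply v.ne_top'
    rw [eq_top_iff]
    intro x _
    obtain ⟨a, b, hb, rfl⟩ := IsFractionRing.div_surjective (A := R) x
    have hb0 : b ≠ 0 := nonZeroDivisors.ne_zero hb
    have hbP : b ∉ P := by
      rw [hP]
      simpa using hb0
    have hunit : IsUnit (f b) := by
      by_contra hc
      exact hbP ((IsLocalRing.mem_maximalIdeal _).2 hc)
    obtain ⟨u, hu⟩ := hunit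
    have h1 : ((u⁻¹ : v.toValuationSubringˣ) : v.toValuationSubring).1 = (algebraMap R F b)⁻¹ := by
      have h3 := congrArg Subtype.val (u.mul_inv)
      rw [hu] at h3
      have h4 : algebraMap R F b * (u⁻¹ : v.toValuationSubringˣ).val.1 = 1 := h3
      have hb0' : algebraMap R F b ≠ 0 := by
        simpa using hb0
      field_simp
      rw [mul_comm]
      exact h4
    rw [div_eq_mul_inv]
    exact v.toValuationSubring.mul_mem _ _ (h a) (h1 ▸ Subtype.property _)
  let w : HeightOneSpectrum R := ⟨P, hPprime, hPne⟩
  refine ⟨w, ?_, hmemP⟩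
  have hle : (w.valuation F).valuationSubring ≤ v.toValuationSubring := by
    intro x hx
    rw [Valuation.mem_valuationSubring_iff] at hx
    obtain ⟨n, d, hnd⟩ := w.exists_primeCompl_mul_eq_of_integer x hx
    have hd : IsUnit (f d) := by
      by_contra hc
      exact d.2 ((IsLocalRing.mem_maximalIdeal _).2 hc)
    obtain ⟨u, hu⟩ := hd
    have hd0 : algebraMap R F d ≠ 0 := by
      have : (d : R) ≠ 0 := by
        intro h0
        exact d.2 (h0 ▸ P.zero_mem)
      simpa using this
    have h1 : ((u⁻¹ : v.toValuationSubringˣ) : v.toValuationSubring).1 = (algebraMap R F d)⁻¹ := by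
      have h3 := congrArg Subtype.val (u.mul_inv)
      rw [hu] at h3
      have h4 : algebraMap R F d * (u⁻¹ : v.toValuationSubringˣ).val.1 = 1 := h3
      field_simp
      rw [mul_comm]
      exact h4
    have hx' : x = algebraMap R F n * (algebraMap R F d)⁻¹ := by
      field_simp
      exact hnd
    rw [hx']
    exact v.toValuationSubring.mul_mem _ _ (h n) (h1 ▸ Subtype.property _)
  apply Place.ext
  rw [Place.ofHeightOneSpectrum_toValuationSubring]
  symm
  have := w.valuationSubringAtPrime_eq_valuationSubring (K := F)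
  rw [← this] at hle ⊢
  exact ValuationSubring.eq_of_le_of_ne_top _ hle v.ne_top'

/-- If `R/P` is exhausted by constants, so is the residue field of the corresponding place. -/
theorem exists_sub_algebraMap_lt_one (w : HeightOneSpectrum R)
    (hw : ∀ r : R, ∃ a : K, r - algebraMap K R a ∈ w.asIdeal) {x : F}
    (hx : w.valuation F x ≤ 1) : ∃ a : K, w.valuation F (x - algebraMap K F a) < 1 := by
  obtain ⟨n, d, hnd⟩ := w.exists_primeCompl_mul_eq_of_integer x hx
  obtain ⟨a, ha⟩ := hw n
  obtain ⟨b, hb⟩ := hw d
  have hb0 : b ≠ 0 := by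
    rintro rfl
    apply d.2
    simpa using hb
  have hd1 : w.valuation F (algebraMap R F d) = 1 := w.valuation_eq_one_iff_notMem.2 d.2
  refine ⟨a / b, ?_⟩
  have h1 : w.valuation F ((x - algebraMap K F (a / b)) * algebraMap R F d) < 1 := by
    have h2 : (x - algebraMap K F (a / b)) * algebraMap R F d =
        algebraMap R F ((n - algebraMap K R a) - algebraMap K R (a / b) * (d - algebraMap K R b)) := by
      rw [sub_mul, hnd]
      simp only [map_sub, map_mul, ← IsScalarTower.algebraMap_apply K R F]
      have : algebraMap K F (a / b) * algebraMap K F b = algebraMap K F a := by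
        rw [← map_mul, div_mul_cancel₀ _ hb0]
      linear_combination -this
    rw [h2, w.valuation_lt_one_iff_mem]
    exact w.asIdeal.sub_mem ha (w.asIdeal.mul_mem_left _ hb)
  rwa [map_mul, hd1, mul_one] at h1

end HeightOne

section Fundamental

variable (t : F)

/-- `K[X] ≃ K[t]` for transcendental `t`. -/
def polyEquivAdjoin {t : F} (ht : Transcendental K t) :
    Polynomial K ≃ₐ[K] Algebra.adjoin K {t} :=
  (AlgEquiv.ofInjective (Polynomial.aeval t) (transcendental_iff_injective.1 ht)).trans
    (Subalgebra.equivOfEq _ _ (Algebra.adjoin_singleton_eq_range_aeval K t).symm)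

theorem coe_polyEquivAdjoin {t : F} (ht : Transcendental K t) (p : Polynomial K) :
    (polyEquivAdjoin ht p : F) = Polynomial.aeval t p := rfl

theorem isPrincipalIdealRing_adjoin {t : F} (ht : Transcendental K t) :
    IsPrincipalIdealRing (Algebra.adjoin K {t}) :=
  IsPrincipalIdealRing.of_surjective (polyEquivAdjoin ht : Polynomial K →+* _)
    (polyEquivAdjoin ht).surjective

/-- the element `t` of `K[t]` -/
def tGen : Algebra.adjoin K {t} := ⟨t, Algebra.self_mem_adjoin_singleton K t⟩

@[simp] theorem coe_tGen : (tGen (K := K) t : F) = t := rfl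

theorem irreducible_tGen {t : F} (ht : Transcendental K t) : Irreducible (tGen (K := K) t) := by
  have h : tGen (K := K) t = polyEquivAdjoin ht Polynomial.X := by
    ext
    rw [coe_polyEquivAdjoin]
    simp
  rw [h, MulEquiv.irreducible_iff]
  exact Polynomial.irreducible_X

theorem exists_sub_mem_span_tGen {t : F} (ht : Transcendental K t) (r : Algebra.adjoin K {t}) :
    ∃ a : K, r - algebraMap K _ a ∈ Ideal.span {tGen (K := K) t} := by
  obtain ⟨p, rfl⟩ := (polyEquivAdjoin ht).surjective r
  refine ⟨p.coeff 0, ?_⟩
  rw [Ideal.mem_span_singleton]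
  refine ⟨polyEquivAdjoin ht p.divX, ?_⟩
  have h : tGen (K := K) t = polyEquivAdjoin ht Polynomial.X := by
    ext
    rw [coe_polyEquivAdjoin]
    simp
  rw [h, ← map_mul, sub_eq_iff_eq_add, ← (polyEquivAdjoin ht).commutes, ← map_add]
  congr 1
  conv_lhs => rw [← Polynomial.X_mul_divX_add p]
  rfl

open scoped IntermediateField.algebraAdjoinAdjoin

theorem isDedekindDomain_adjoin {t : F} (ht : Transcendental K t) :
    IsDedekindDomain (Algebra.adjoin K {t}) := by
  haveI := isPrincipalIdealRing_adjoin ht
  infer_instance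

variable (K) in
/-- The integral closure of `K[t]` in `F`. -/
abbrev intClosure (t : F) : Subalgebra (Algebra.adjoin K {t}) F :=
  integralClosure (Algebra.adjoin K {t}) F

theorem isFractionRing_intClosure (t : F) [FiniteDimensional K⟮t⟯ F] :
    IsFractionRing (intClosure K t) F :=
  integralClosure.isFractionRing_of_finite_extension K⟮t⟯ F

theorem isDedekindDomain_intClosure {t : F} (ht : Transcendental K t) [FiniteDimensional K⟮t⟯ F]
    [Algebra.IsSeparable K⟮t⟯ F] : IsDedekindDomain (intClosure K t) := by
  haveI := isDedekindDomain_adjoin ht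
  exact integralClosure.isDedekindDomain (Algebra.adjoin K {t}) K⟮t⟯ F

theorem finite_intClosure {t : F} (ht : Transcendental K t) [FiniteDimensional K⟮t⟯ F]
    [Algebra.IsSeparable K⟮t⟯ F] : Module.Finite (Algebra.adjoin K {t}) (intClosure K t) := by
  haveI := isDedekindDomain_adjoin ht
  exact IsIntegralClosure.finite (Algebra.adjoin K {t}) K⟮t⟯ F (intClosure K t)

theorem mem_place_of_isIntegral (v : Place K F) {A : Type*} [CommRing A] [Algebra A F]
    (hA : ∀ a : A, algebraMap A F a ∈ v.toValuationSubring) {x : F} (hx : IsIntegral A x) :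
    x ∈ v.toValuationSubring := by
  have : IsIntegrallyClosed v.toValuationSubring := inferInstance
  have h1 : IsIntegral v.toValuationSubring x := by
    let f : A →+* v.toValuationSubring := (algebraMap A F).codRestrict v.toValuationSubring.toSubring hA
    obtain ⟨p, hp, hpx⟩ := hx
    refine ⟨p.map f, hp.map f, ?_⟩
    rw [Polynomial.eval₂_map]
    exact hpx
  obtain ⟨y, hy⟩ := (IsIntegrallyClosed.isIntegral_iff (K := F)).1 h1
  rw [← hy]
  exact y.2

theorem ord_nonneg_of_mem (v : Place K F) {x : F} (hx : x ∈ v.toValuationSubring) :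
    0 ≤ v.ord x := by
  rcases eq_or_ne x 0 with rfl | hx0
  · simp
  have := v.adicValuation_le_one_of_mem hx
  rw [v.adicValuation_le_one_iff] at this
  exact this.resolve_left hx0

theorem mem_of_ord_nonneg (v : Place K F) {x : F} (hx : 0 ≤ v.ord x) :
    x ∈ v.toValuationSubring := by
  rcases v.toValuationSubring.mem_or_inv_mem x with h | h
  · exact h
  rcases eq_or_ne x 0 with rfl | hx0
  · exact zero_mem _
  have h1 := ord_nonneg_of_mem v h
  rw [v.ord_inv] at h1
  have h2 : v.ord x = 0 := by omega
  have h3 : v.adicValuation x⁻¹ = 1 := by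
    rw [v.adicValuation_eq_exp_neg_ord (inv_ne_zero hx0), v.ord_inv, h2]
    simp
  have h4 : IsUnit (⟨x⁻¹, h⟩ : v.toValuationSubring) := (v.adicValuation_coe_eq_one_iff ⟨x⁻¹, h⟩).1 h3
  obtain ⟨u, hu⟩ := h4
  have h5 : ((u⁻¹ : v.toValuationSubringˣ) : v.toValuationSubring).1 = x := by
    have h3 := congrArg Subtype.val (u.mul_inv)
    rw [hu] at h3
    have h4 : x⁻¹ * (u⁻¹ : v.toValuationSubringˣ).val.1 = 1 := h3
    field_simp at h4
    exact h4
  rw [← h5]
  exact Subtype.property _

theorem mem_iff_ord_nonneg (v : Place K F) {x : F} :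
    x ∈ v.toValuationSubring ↔ 0 ≤ v.ord x :=
  ⟨ord_nonneg_of_mem v, mem_of_ord_nonneg v⟩

theorem ord_algebraMap (v : Place K F) (a : K) : v.ord (algebraMap K F a) = 0 := by
  rcases eq_or_ne a 0 with rfl | ha
  · simp
  have h1 := ord_nonneg_of_mem v (v.algebraMap_mem' a)
  have h2 := ord_nonneg_of_mem v (v.algebraMap_mem' a⁻¹)
  rw [map_inv₀, v.ord_inv] at h2
  omega

theorem adicValuation_lt_one_iff (v : Place K F) {x : F} :
    v.adicValuation x < 1 ↔ x = 0 ∨ 0 < v.ord x := by
  rcases eq_or_ne x 0 with rfl | hx
  · simp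
  rw [v.adicValuation_eq_exp_neg_ord hx, ← exp_zero, exp_lt_exp]
  simp [hx]

/-- **Fundamental identity.** The places where `t` vanishes form a finite set, the orders of `t`
add up to `[F : K(t)]`, and those places have residue field `K`. -/
theorem exists_finset_sum_ord_eq_finrank [IsAlgClosed K] {t : F} (ht : Transcendental K t)
    [FiniteDimensional K⟮t⟯ F] [Algebra.IsSeparable K⟮t⟯ F] :
    ∃ s : Finset (Place K F), (∀ v, v ∈ s ↔ 0 < v.ord t) ∧
      (∑ v ∈ s, v.ord t = finrank K⟮t⟯ F) ∧
      ∀ v ∈ s, ∀ x ∈ v.toValuationSubring, ∃ a : K, v.adicValuation (x - algebraMap K F a) < 1 := by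
  classical
  haveI := isPrincipalIdealRing_adjoin ht
  haveI := isDedekindDomain_adjoin ht
  haveI := isFractionRing_intClosure (K := K) t
  haveI := isDedekindDomain_intClosure ht
  haveI := finite_intClosure ht
  have ht0 : t ≠ 0 := by
    rintro rfl
    exact ht isAlgebraic_zero
  set A := Algebra.adjoin K {t} with hA
  set B := intClosure K t with hB
  haveI : IsScalarTower K A F := inferInstance
  letI algKB : Algebra K B := inferInstance
  haveI : IsScalarTower K B F := inferInstance
  haveI : IsScalarTower K A B := inferInstance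
  let p : Ideal A := Ideal.span {tGen t}
  have htg0 : tGen (K := K) t ≠ 0 := (irreducible_tGen ht).ne_zero
  haveI hpmax : p.IsMaximal := PrincipalIdealRing.isMaximal_of_irreducible (irreducible_tGen ht)
  have hp0 : p ≠ ⊥ := by
    intro h
    exact htg0 (Ideal.span_singleton_eq_bot.1 h)
  have hsum := Ideal.sum_ramification_inertia (R := A) B K⟮t⟯ F (p := p) hp0
  -- the residue fields are `K`
  have hres : ∀ P ∈ IsDedekindDomain.primesOverFinset p B, ∀ b : B, ∃ a : K,
      b - algebraMap K B a ∈ P := by
    intro P hP b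
    rw [IsDedekindDomain.mem_primesOverFinset_iff hp0] at hP
    haveI := hP.1
    haveI := hP.2
    haveI : P.IsMaximal := Ideal.IsMaximal.of_liesOver_isMaximal P p
    letI := Ideal.Quotient.field p
    letI := Ideal.Quotient.field P
    -- `A/p` is finite over `K`
    have hsurj : Function.Surjective (algebraMap K (A ⧸ p)) := by
      intro y
      obtain ⟨r, rfl⟩ := Ideal.Quotient.mk_surjective y
      obtain ⟨a, ha⟩ := exists_sub_mem_span_tGen ht r
      refine ⟨a, ?_⟩
      rw [IsScalarTower.algebraMap_apply K A (A ⧸ p)]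
      exact ((Ideal.Quotient.mk_eq_mk_iff_sub_mem _ _).2 ha).symm
    haveI : Module.Finite K (A ⧸ p) :=
      Module.Finite.of_surjective (Algebra.linearMap K (A ⧸ p)) hsurj
    haveI : Module.Finite (A ⧸ p) (B ⧸ P) := inferInstance
    haveI : IsScalarTower K (A ⧸ p) (B ⧸ P) := by
      refine IsScalarTower.of_algebraMap_eq fun a => ?_
      rw [IsScalarTower.algebraMap_apply K A (A ⧸ p), IsScalarTower.algebraMap_apply K B (B ⧸ P),
        IsScalarTower.algebraMap_apply K A B]
      rfl
    haveI : Module.Finite K (B ⧸ P) := Module.Finite.trans (A ⧸ p) (B ⧸ P)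
    haveI : Algebra.IsIntegral K (B ⧸ P) := Algebra.IsIntegral.of_finite K (B ⧸ P)
    have hbij : Function.Bijective (algebraMap K (B ⧸ P)) :=
      IsAlgClosed.algebraMap_bijective_of_isIntegral
    obtain ⟨a, ha⟩ := hbij.2 (Ideal.Quotient.mk P b)
    refine ⟨a, ?_⟩
    rw [IsScalarTower.algebraMap_apply K B (B ⧸ P)] at ha
    exact (Ideal.Quotient.mk_eq_mk_iff_sub_mem _ _).1 ha.symm
  have hdeg : ∀ P ∈ IsDedekindDomain.primesOverFinset p B, p.inertiaDeg' P = 1 := by
    intro P hP
    have hP' := hP
    rw [IsDedekindDomain.mem_primesOverFinset_iff hp0] at hP'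
    have := hP'.1
    have := hP'.2
    have : P.IsMaximal := Ideal.IsMaximal.of_liesOver_isMaximal P p
    rw [Ideal.inertiaDeg'_algebraMap]
    letI := Ideal.Quotient.field p
    letI := Ideal.Quotient.field P
    have hsurj : Function.Surjective (algebraMap (A ⧸ p) (B ⧸ P)) := by
      intro y
      obtain ⟨b, rfl⟩ := Ideal.Quotient.mk_surjective y
      obtain ⟨a, ha⟩ := hres P hP b
      refine ⟨Ideal.Quotient.mk p (algebraMap K A a), ?_⟩
      rw [Ideal.Quotient.algebraMap_mk_of_liesOver, ← IsScalarTower.algebraMap_apply K A B]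
      exact ((Ideal.Quotient.mk_eq_mk_iff_sub_mem _ _).2 ha).symm
    have e := LinearEquiv.ofBijective (Algebra.linearMap (A ⧸ p) (B ⧸ P))
      ⟨(algebraMap (A ⧸ p) (B ⧸ P)).injective, hsurj⟩
    rw [← e.finrank_eq, finrank_self]
  have hmap : Ideal.map (algebraMap A B) p = Ideal.span {algebraMap A B (tGen t)} := by
    rw [Ideal.map_span, Set.image_singleton]
  have htB : algebraMap A B (tGen t) ≠ 0 := by
    intro h
    have := congrArg (algebraMap B F) h
    rw [← IsScalarTower.algebraMap_apply A B F, map_zero] at this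
    exact ht0 this
  have hmap0 : Ideal.map (algebraMap A B) p ≠ ⊥ := by
    rw [hmap]
    intro h
    exact htB (Ideal.span_singleton_eq_bot.1 h)
  have hne : ∀ P ∈ IsDedekindDomain.primesOverFinset p B, P ≠ ⊥ := by
    intro P hP hbot
    rw [IsDedekindDomain.mem_primesOverFinset_iff hp0] at hP
    have h1 := hP.2.over
    rw [hbot] at h1
    apply hp0
    rw [h1, Ideal.under_def, ← RingHom.ker_eq_comap_bot]
    rw [← RingHom.injective_iff_ker_eq_bot]
    intro x y hxy
    exact Subtype.ext (congrArg (algebraMap B F) hxy)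
  -- the place attached to a prime above `p`
  let W : (P : Ideal B) → P ∈ IsDedekindDomain.primesOverFinset p B → HeightOneSpectrum B :=
    fun P hP => ⟨P, ((IsDedekindDomain.mem_primesOverFinset_iff hp0 _).1 hP).1, hne P hP⟩
  let V : (P : Ideal B) → P ∈ IsDedekindDomain.primesOverFinset p B → Place K F :=
    fun P hP => Place.ofHeightOneSpectrum (W P hP)
  have hord : ∀ P hP, (V P hP).ord t = (p.ramificationIdx' P : ℤ) := by
    intro P hP
    have h1 : (V P hP).ord t = -log ((W P hP).valuation F t) := ord_ofHeightOneSpectrum _ _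
    have h2 : (W P hP).valuation F t =
      (W P hP).valuation F (algebraMap B F (algebraMap A B (tGen t))) := rfl
    rw [h1, h2, HeightOneSpectrum.valuation_of_algebraMap,
      HeightOneSpectrum.intValuation_eq_exp_neg_multiplicity _ htB, log_exp, neg_neg,
      Ideal.IsDedekindDomain.ramificationIdx'_eq_multiplicity hmap0 (W P hP).isPrime, hmap]
  have hpos : ∀ P hP, 0 < (V P hP).ord t := by
    intro P hP
    rw [hord P hP]
    have h1 := (IsDedekindDomain.mem_primesOverFinset_iff hp0 _).1 hP
    have := Ideal.IsDedekindDomain.ramificationIdx'_ne_zero hmap0 h1.1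
      (Ideal.map_le_iff_le_comap.2 h1.2.over.le)
    omega
  have hinj : ∀ P hP Q hQ, V P hP = V Q hQ → P = Q := by
    intro P hP Q hQ h
    have h1 : (W P hP) = (W Q hQ) := by
      apply HeightOneSpectrum.eq_of_valuation_isEquiv_valuation (K := F)
      rw [Valuation.isEquiv_iff_val_le_one]
      intro x
      have h2 := congrArg (fun v => v.adicValuation x) h
      simp only [V, adicValuation_ofHeightOneSpectrum] at h2
      rw [h2]
    exact congrArg HeightOneSpectrum.asIdeal h1
  let s : Finset (Place K F) := (IsDedekindDomain.primesOverFinset p B).attach.image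
    (fun P => V P.1 P.2)
  refine ⟨s, ?_, ?_, ?_⟩
  · intro v
    constructor
    · intro hv
      obtain ⟨P, -, rfl⟩ := Finset.mem_image.1 hv
      exact hpos P.1 P.2
    · intro hv
      have htv : t ∈ v.toValuationSubring := mem_of_ord_nonneg v hv.le
      have hAv : ∀ a : A, algebraMap A F a ∈ v.toValuationSubring := by
        intro a
        have h1 : A ≤ ({ v.toValuationSubring.toSubring with
            algebraMap_mem' := v.algebraMap_mem' } : Subalgebra K F) := by
          rw [hA, Algebra.adjoin_le_iff, Set.singleton_subset_iff]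
          exact htv
        exact h1 a.2
      have hBv : ∀ b : B, algebraMap B F b ∈ v.toValuationSubring := fun b =>
        mem_place_of_isIntegral v hAv b.2
      obtain ⟨w, hw, hw'⟩ := exists_heightOneSpectrum v hBv
      have hPw : w.asIdeal ∈ IsDedekindDomain.primesOverFinset p B := by
        rw [IsDedekindDomain.mem_primesOverFinset_iff hp0]
        refine ⟨w.isPrime, ⟨?_⟩⟩
        refine hpmax.eq_of_le (Ideal.IsPrime.ne_top inferInstance) ?_
        rw [Ideal.span_le, Set.singleton_subset_iff]
        change algebraMap A B (tGen t) ∈ w.asIdeal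
        rw [hw', adicValuation_lt_one_iff]
        exact Or.inr hv
      refine Finset.mem_image.2 ⟨⟨w.asIdeal, hPw⟩, Finset.mem_attach _ _, ?_⟩
      rw [hw]
  · rw [Finset.sum_image, Finset.sum_congr rfl (fun P _ => hord P.1 P.2), ← hsum]
    · push_cast
      rw [← Finset.sum_attach (IsDedekindDomain.primesOverFinset p B)]
      refine Finset.sum_congr rfl fun P _ => ?_
      rw [hdeg P.1 P.2]
      simp
    · rintro ⟨P, hP⟩ - ⟨Q, hQ⟩ - h
      exact Subtype.ext (hinj P hP Q hQ h)
  · intro v hv x hx
    obtain ⟨P, -, rfl⟩ := Finset.mem_image.1 hv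
    have hx' := mem_place_ofHeightOne.1 hx
    obtain ⟨a, ha⟩ := exists_sub_algebraMap_lt_one (K := K) (W P.1 P.2) (hres P.1 P.2) hx'
    exact ⟨a, by rwa [adicValuation_ofHeightOneSpectrum]⟩

end Fundamental

end Fermat.Agent.FunField
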